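/-
S56 / SEL-CORE (architect helper56): the abstract `2 × 2`-matrix theorem behind the choice of
Taylor-Wiles primes.  DEFINITIONS.

`G` = `G_ℚ`, `ρ` = `ρbar` in a basis, `det ρ` = the mod `p` cyclotomic character, `G'` = the absolute
Galois group of `ℚ(ζ_{p^(n+1)})`, `b` = a cocycle with values in `ad⁰(1)`:
`g • X = det (ρ g) • (ρ g * X * ρ g⁻¹)`.
THEOREM (`Coc.isCob_of_tau`): if `tau s = tr (b s * ρ s) = 0` for all `s ∈ G'` with distinct
eigenvalues then `b` is a coboundary.
-/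
import Mathlib

set_option autoImplicit false

namespace Fermat.Agent.S56.Sel

open Matrix

/-- `2 × 2` matrices. -/
abbrev M2 (k : Type) : Type := Matrix (Fin 2) (Fin 2) k

variable {k G : Type} [Field k] [Group G]

/-- `v` spans a line stable under `ρ H`. -/
def StableLine (ρ : G →* M2 k) (H : Subgroup G) (v : Fin 2 → k) : Prop :=
  v ≠ 0 ∧ ∀ g ∈ H, ∃ c : k, (ρ g).mulVec v = c • v

/-- nilpotent `2 × 2` matrices -/
structure IsNil (n : M2 k) : Prop where
  tr : n.trace = 0
  det : n.det = 0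

/-- The group theoretic data. -/
structure Core (k G : Type) [Field k] [Group G] where
  /-- the representation -/
  ρ : G →* M2 k
  /-- the subgroup `G_{ℚ(ζ_{p^(n+1)})}` -/
  G' : Subgroup G
  normal : G'.Normal
  det_one : ∀ s ∈ G', (ρ s).det = 1
  /-- `G / G'` is cyclic -/
  cyc : ∃ c : G, ∀ g : G, ∃ i : ℤ, c ^ i * g ∈ G'
  /-- no stable line for `G` and for its subgroups of index two -/
  irr : ∀ H : Subgroup G, (H = ⊤ ∨ H.index = 2) → ∀ v, ¬ StableLine ρ H v
  /-- all eigenvalues lie in `k` -/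
  split : ∀ g, ∃ α β : k, (ρ g).trace = α + β ∧ (ρ g).det = α * β
  /-- an element whose determinant is not a square of the prime field -/
  g0 : G
  g0_ns : ∀ m : ℕ, (m : k) ^ 2 ≠ (ρ g0).det

namespace Core

variable (D : Core k G)

/-- distinct eigenvalues (for elements of determinant one) -/
def IsReg (s : G) : Prop := (D.ρ s).trace ^ 2 ≠ 4

/-- `ρ x` is unipotent and not `1` -/
def IsUn (x : G) : Prop := x ∈ D.G' ∧ IsNil (D.ρ x - 1) ∧ D.ρ x ≠ 1

theorem ρ_mul_inv (g : G) : D.ρ g * D.ρ g⁻¹ = 1 := by rw [← map_mul, mul_inv_cancel, map_one]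

theorem ρ_inv_mul (g : G) : D.ρ g⁻¹ * D.ρ g = 1 := by rw [← map_mul, inv_mul_cancel, map_one]

end Core

/-- A cocycle with values in `ad⁰(1)`. -/
structure Coc (D : Core k G) where
  /-- the cocycle -/
  b : G → M2 k
  tr : ∀ g, (b g).trace = 0
  coc : ∀ g h, b (g * h) = b g + (D.ρ g).det • (D.ρ g * b h * D.ρ g⁻¹)

namespace Coc

variable {D : Core k G} (c : Coc D)

/-- `tau s = tr (b s * ρ s)` -/
def tau (s : G) : k := (c.b s * D.ρ s).trace

/-- `b` is a coboundary -/
def IsCob : Prop :=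
  ∃ X : M2 k, X.trace = 0 ∧ ∀ g, c.b g = (D.ρ g).det • (D.ρ g * X * D.ρ g⁻¹) - X

end Coc

/-- `a` lies in the prime field -/
def InPrime (a : k) : Prop := ∃ m : ℕ, a = (m : k)

end Fermat.Agent.S56.Sel
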