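/-
S56 / SEL-CORE (architect helper56), node SC-1: identities for 2 x 2 matrices
Proofs: helper168.
-/
import Fermat.Agent.S56.Sel.Core.Defs

set_option autoImplicit false

namespace Fermat.Agent.S56.Sel

open Matrix

variable {k G : Type} [Field k] [Group G]

theorem cayley (A : M2 k) : A * A = A.trace • A - A.det • (1 : M2 k) := by
  ext i j
  fin_cases i <;> fin_cases j <;>
    simp [Matrix.mul_apply, Fin.sum_univ_two, Matrix.trace_fin_two, Matrix.det_fin_two] <;> ring

theorem polar (A B : M2 k) :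
    A * B + B * A = A.trace • B + B.trace • A + ((A * B).trace - A.trace * B.trace) • (1 : M2 k) := by
  ext i j
  fin_cases i <;> fin_cases j <;>
    simp [Matrix.mul_apply, Fin.sum_univ_two, Matrix.trace_fin_two] <;> ring

theorem inv_eq_of_det_one {A A' : M2 k} (h : A * A' = 1) (hd : A.det = 1) :
    A' = A.trace • (1 : M2 k) - A := by
  have h' : A' * A = 1 := mul_eq_one_comm.mp h
  have h1 : A * (A.trace • (1 : M2 k) - A) = 1 := by
    rw [mul_sub, cayley A, hd, one_smul, Matrix.mul_smul, mul_one]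
    abel
  calc A' = A' * (A * (A.trace • (1 : M2 k) - A)) := by rw [h1, mul_one]
    _ = A.trace • (1 : M2 k) - A := by rw [← mul_assoc, h', one_mul]

theorem trace_conj {g g' : M2 k} (h : g' * g = 1) (A : M2 k) : (g * A * g').trace = A.trace := by
  rw [Matrix.trace_mul_comm, ← mul_assoc, h, one_mul]

theorem det_conj {g g' : M2 k} (h : g * g' = 1) (A : M2 k) : (g * A * g').det = A.det := by
  have h1 : g.det * g'.det = 1 := by rw [← Matrix.det_mul, h, Matrix.det_one]
  rw [Matrix.det_mul, Matrix.det_mul]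
  calc g.det * A.det * g'.det = A.det * (g.det * g'.det) := by ring
    _ = A.det := by rw [h1, mul_one]

theorem Mat.trace_sub_one (u : M2 k) : (u - 1).trace = u.trace - 2 := by
  rw [Matrix.trace_sub, Matrix.trace_one, Fintype.card_fin]
  norm_num

theorem Mat.det_sub_one (u : M2 k) : (u - 1).det = u.det - u.trace + 1 := by
  simp [Matrix.trace_fin_two, Matrix.det_fin_two]
  ring

theorem isNil_sub_one_iff (u : M2 k) : IsNil (u - 1) ↔ u.trace = 2 ∧ u.det = 1 := by
  constructor
  · rintro ⟨h1, h2⟩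
    rw [Mat.trace_sub_one] at h1
    rw [Mat.det_sub_one] at h2
    have ht : u.trace = 2 := by linear_combination h1
    exact ⟨ht, by linear_combination h2 + ht⟩
  · rintro ⟨h1, h2⟩
    refine ⟨?_, ?_⟩
    · rw [Mat.trace_sub_one, h1]; ring
    · rw [Mat.det_sub_one, h1, h2]; ring

theorem Mat.mul_self_of_isNil {n : M2 k} (h : IsNil n) : n * n = 0 := by
  rw [cayley n, h.tr, h.det, zero_smul, zero_smul, sub_zero]

theorem pow_of_isNil {u : M2 k} (h : IsNil (u - 1)) (m : ℕ) : u ^ m = 1 + (m : k) • (u - 1) := by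
  have hn := Mat.mul_self_of_isNil h
  induction m with
  | zero => simp
  | succ m ih =>
    have hu : u = 1 + (u - 1) := by abel
    calc u ^ (m + 1) = (1 + (m : k) • (u - 1)) * (1 + (u - 1)) := by rw [pow_succ, ih, ← hu]
      _ = 1 + (u - 1) + (m : k) • (u - 1) + (m : k) • ((u - 1) * (u - 1)) := by
          rw [add_mul, mul_add, mul_add, one_mul, one_mul, mul_one, Matrix.smul_mul]
          abel
      _ = 1 + ((m + 1 : ℕ) : k) • (u - 1) := by
          rw [hn, smul_zero, add_zero, Nat.cast_succ, add_smul, one_smul]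
          abel

/-- an eigenvector -/
theorem exists_eigenvector (A : M2 k) (α β : k) (ht : A.trace = α + β) (hd : A.det = α * β) :
    ∃ v : Fin 2 → k, v ≠ 0 ∧ A.mulVec v = α • v := by
  have hdet : (A - α • (1 : M2 k)).det = 0 := by
    rw [Matrix.trace_fin_two] at ht
    rw [Matrix.det_fin_two] at hd
    simp only [Matrix.det_fin_two, Matrix.sub_apply, Matrix.smul_apply, Matrix.one_apply_eq,
      smul_eq_mul, mul_one, ne_eq, zero_ne_one, one_ne_zero, not_false_eq_true,
      Matrix.one_apply_ne, mul_zero, sub_zero]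
    linear_combination hd - α * ht
  obtain ⟨v, hv0, hv⟩ := Matrix.exists_mulVec_eq_zero_iff.mpr hdet
  refine ⟨v, hv0, ?_⟩
  rw [Matrix.sub_mulVec, Matrix.smul_mulVec, Matrix.one_mulVec, sub_eq_zero] at hv
  exact hv

theorem Mat.mulVec_eq {A : M2 k} {v : Fin 2 → k} {α : k} (h : A.mulVec v = α • v) :
    A 0 0 * v 0 + A 0 1 * v 1 = α * v 0 ∧ A 1 0 * v 0 + A 1 1 * v 1 = α * v 1 := by
  have h0 := congrFun h 0
  have h1 := congrFun h 1
  simp only [Matrix.mulVec, dotProduct, Fin.sum_univ_two, Pi.smul_apply, smul_eq_mul] at h0 h1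
  exact ⟨h0, h1⟩

theorem Mat.ne_zero_iff {v : Fin 2 → k} : v ≠ 0 ↔ v 0 ≠ 0 ∨ v 1 ≠ 0 := by
  constructor
  · intro h
    by_contra hcon
    rw [not_or, not_not, not_not] at hcon
    apply h
    funext i
    fin_cases i
    · exact hcon.1
    · exact hcon.2
  · rintro (h | h) rfl
    · exact h rfl
    · exact h rfl

theorem exists_diag (A : M2 k) (α β : k) (hαβ : α ≠ β) (ht : A.trace = α + β)
    (hd : A.det = α * β) :
    ∃ P P' : M2 k, P * P' = 1 ∧ P' * P = 1 ∧ P * A * P' = !![α, 0; 0, β] := by
  obtain ⟨v, hv0, hv⟩ := exists_eigenvector A α β ht hd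
  obtain ⟨w, hw0, hw⟩ := exists_eigenvector A β α (by rw [ht, add_comm]) (by rw [hd, mul_comm])
  obtain ⟨v1, v2⟩ := Mat.mulVec_eq hv
  obtain ⟨w1, w2⟩ := Mat.mulVec_eq hw
  have hsub : α - β ≠ 0 := sub_ne_zero.mpr hαβ
  set P' : M2 k := !![v 0, w 0; v 1, w 1] with hP'
  have hdet : P'.det ≠ 0 := by
    intro h0
    rw [hP', Matrix.det_fin_two_of] at h0
    have e1 : v 0 * w 0 = 0 := by
      have : (α - β) * (v 0 * w 0) = 0 := by
        linear_combination (-w 0) * v1 + v 0 * w1 - A 0 1 * h0
      exact (mul_eq_zero.mp this).resolve_left hsub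
    have e2 : v 1 * w 1 = 0 := by
      have : (α - β) * (v 1 * w 1) = 0 := by
        linear_combination (-w 1) * v2 + v 1 * w2 + A 1 0 * h0
      exact (mul_eq_zero.mp this).resolve_left hsub
    apply hw0
    rcases Mat.ne_zero_iff.mp hv0 with hv | hv
    · have hw00 : w 0 = 0 := (mul_eq_zero.mp e1).resolve_left hv
      have hw10 : w 1 = 0 := by
        rw [hw00, zero_mul, sub_zero] at h0
        exact (mul_eq_zero.mp h0).resolve_left hv
      funext i
      fin_cases i
      · exact hw00
      · exact hw10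
    · have hw10 : w 1 = 0 := (mul_eq_zero.mp e2).resolve_left hv
      have hw00 : w 0 = 0 := by
        rw [hw10, mul_zero, zero_sub, neg_eq_zero] at h0
        exact (mul_eq_zero.mp h0).resolve_right hv
      funext i
      fin_cases i
      · exact hw00
      · exact hw10
  have hunit : IsUnit P'.det := isUnit_iff_ne_zero.mpr hdet
  have hAP : A * P' = P' * !![α, 0; 0, β] := by
    ext i j
    fin_cases i <;> fin_cases j <;>
      simp [hP', Matrix.mul_apply, Fin.sum_univ_two]
    · linear_combination v1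
    · linear_combination w1
    · linear_combination v2
    · linear_combination w2
  refine ⟨P'⁻¹, P', Matrix.nonsing_inv_mul P' hunit, Matrix.mul_nonsing_inv P' hunit, ?_⟩
  rw [mul_assoc, hAP, ← mul_assoc, Matrix.nonsing_inv_mul P' hunit, one_mul]

end Fermat.Agent.S56.Sel
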