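/-
S56 / SEL-CORE (architect helper56), node SC-4: formulas for cocycles
(statements frozen by helper56; proofs helper218, task 2637).
-/
import Fermat.Agent.S56.Sel.Core.Mat

set_option autoImplicit false

namespace Fermat.Agent.S56.Sel

open Matrix

variable {k G : Type} [Field k] [Group G]

variable {D : Core k G} (c : Coc D)

theorem Coc.b_one : c.b 1 = 0 := by
  have h := c.coc 1 1
  rw [mul_one, inv_one, map_one, Matrix.det_one, one_smul, one_mul, mul_one] at h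
  exact left_eq_add.1 h

/-- `b g + det (ρ g) • ρ g * b g⁻¹ * ρ g⁻¹ = 0` -/
theorem Basic.b_add_inv (g : G) :
    c.b g + (D.ρ g).det • (D.ρ g * c.b g⁻¹ * D.ρ g⁻¹) = 0 := by
  rw [← c.coc g g⁻¹, mul_inv_cancel, c.b_one]

/-- `Z_s = b s * ρ s` is a "derivation" on `G'` -/
theorem Coc.Z_mul {s : G} (hs : s ∈ D.G') (t : G) :
    c.b (s * t) * D.ρ (s * t) = c.b s * D.ρ s * D.ρ t + D.ρ s * (c.b t * D.ρ t) := by
  rw [c.coc s t, D.det_one s hs, one_smul, map_mul, add_mul]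
  congr 1
  · rw [mul_assoc]
  · calc D.ρ s * c.b t * D.ρ s⁻¹ * (D.ρ s * D.ρ t)
        = D.ρ s * c.b t * (D.ρ s⁻¹ * D.ρ s) * D.ρ t := by simp only [mul_assoc]
      _ = D.ρ s * (c.b t * D.ρ t) := by rw [D.ρ_inv_mul, mul_one, mul_assoc]

theorem Coc.tau_mul {s : G} (hs : s ∈ D.G') (t : G) :
    c.tau (s * t) = (c.b s * D.ρ s * D.ρ t).trace + (D.ρ s * (c.b t * D.ρ t)).trace := by
  rw [Coc.tau, c.Z_mul hs t, Matrix.trace_add]

/-- (F1) -/
theorem Coc.tau_mul_add {x y : G} (hx : x ∈ D.G') (hy : y ∈ D.G') :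
    c.tau (x * y) + c.tau (x * y⁻¹) = (D.ρ x).trace * c.tau y + c.tau x * (D.ρ y).trace := by
  have hy' : y⁻¹ ∈ D.G' := D.G'.inv_mem hy
  -- `u⁻¹ = tr u - u`
  have hu' : D.ρ y⁻¹ = (D.ρ y).trace • (1 : M2 k) - D.ρ y :=
    inv_eq_of_det_one (D.ρ_mul_inv y) (D.det_one y hy)
  -- `b y⁻¹ * u⁻¹ = - u⁻¹ * b y`
  have hb : c.b y⁻¹ * D.ρ y⁻¹ = -(D.ρ y⁻¹ * c.b y) := by
    have h := Basic.b_add_inv c y⁻¹
    rw [D.det_one _ hy', one_smul, inv_inv] at h
    have h2 : c.b y⁻¹ = -(D.ρ y⁻¹ * c.b y * D.ρ y) := eq_neg_of_add_eq_zero_left h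
    rw [h2, neg_mul, mul_assoc, D.ρ_mul_inv, mul_one]
  -- `B u - u⁻¹ B = tr (B u)`
  have hpol : c.b y * D.ρ y + c.b y⁻¹ * D.ρ y⁻¹ = (c.b y * D.ρ y).trace • (1 : M2 k) := by
    have hp := polar (c.b y) (D.ρ y)
    rw [c.tr y, zero_smul, zero_mul, sub_zero, zero_add] at hp
    rw [hb, hu', sub_mul, smul_mul_assoc, one_mul, neg_sub, add_sub_assoc', hp]
    abel
  rw [c.tau_mul hx y, c.tau_mul hx y⁻¹]
  have h1 : (c.b x * D.ρ x * D.ρ y).trace + (c.b x * D.ρ x * D.ρ y⁻¹).trace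
      = c.tau x * (D.ρ y).trace := by
    rw [← Matrix.trace_add, ← mul_add, hu', add_sub_cancel, mul_smul_comm, mul_one,
      Matrix.trace_smul, smul_eq_mul, mul_comm, Coc.tau]
  have h2 : (D.ρ x * (c.b y * D.ρ y)).trace + (D.ρ x * (c.b y⁻¹ * D.ρ y⁻¹)).trace
      = (D.ρ x).trace * c.tau y := by
    rw [← Matrix.trace_add, ← mul_add, hpol, mul_smul_comm, mul_one,
      Matrix.trace_smul, smul_eq_mul, mul_comm, Coc.tau]
  rw [← h1, ← h2]
  ring

/-- coboundaries have `tau = 0` -/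
theorem trace_cob (A A' Y : M2 k) (h : A' * A = 1) : ((A * Y * A' - Y) * A).trace = 0 := by
  rw [sub_mul, mul_assoc, h, mul_one, Matrix.trace_sub, Matrix.trace_mul_comm, sub_self]

/-- the matrix computation behind (F4) -/
theorem Basic.trace_conj_aux (P P' X X' W B : M2 k) (d : k) (hP : P' * P = 1)
    (hX : X' * X = 1) :
    ((-(d • (P * W * P')) + d • (P * (B + X * W * X') * P')) * (P * X * P')).trace
      = d * (B * X).trace := by
  have h1 : (P * W * P') * (P * X * P') = P * (W * X) * P' := by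
    calc (P * W * P') * (P * X * P') = P * W * (P' * P) * X * P' := by simp only [mul_assoc]
      _ = P * (W * X) * P' := by rw [hP, mul_one]; simp only [mul_assoc]
  have h2 : (P * (B + X * W * X') * P') * (P * X * P') = P * (B * X + X * W) * P' := by
    calc (P * (B + X * W * X') * P') * (P * X * P')
        = P * (B + X * W * X') * (P' * P) * X * P' := by simp only [mul_assoc]
      _ = P * (B * X + X * W * (X' * X)) * P' := by
          rw [hP, mul_one, mul_assoc P, add_mul, mul_assoc (X * W)]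
      _ = P * (B * X + X * W) * P' := by rw [hX, mul_one]
  rw [add_mul, neg_mul, smul_mul_assoc, smul_mul_assoc, h1, h2, Matrix.trace_add,
    Matrix.trace_neg, Matrix.trace_smul, Matrix.trace_smul, trace_conj hP, trace_conj hP,
    Matrix.trace_add, Matrix.trace_mul_comm X W, smul_eq_mul, smul_eq_mul]
  ring

/-- (F4) -/
theorem Coc.tau_conj (g : G) {x : G} (hx : x ∈ D.G') :
    c.tau (g * x * g⁻¹) = (D.ρ g).det * c.tau x := by
  have hg : c.b g = -((D.ρ g).det • (D.ρ g * c.b g⁻¹ * D.ρ g⁻¹)) :=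
    eq_neg_of_add_eq_zero_left (Basic.b_add_inv c g)
  have hb : c.b (g * x * g⁻¹) = -((D.ρ g).det • (D.ρ g * c.b g⁻¹ * D.ρ g⁻¹)) +
      (D.ρ g).det • (D.ρ g * (c.b x + D.ρ x * c.b g⁻¹ * D.ρ x⁻¹) * D.ρ g⁻¹) := by
    rw [mul_assoc, c.coc g (x * g⁻¹), c.coc x g⁻¹, D.det_one x hx, one_smul, ← hg]
  rw [Coc.tau, hb, map_mul, map_mul,
    Basic.trace_conj_aux _ _ _ _ _ _ _ (D.ρ_inv_mul g) (D.ρ_inv_mul x), Coc.tau]

/-- (F5) -/
theorem Coc.tau_of_scalar {s : G} {a : k} (h : D.ρ s = a • (1 : M2 k)) : c.tau s = 0 := by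
  rw [Coc.tau, h, mul_smul_comm, mul_one, Matrix.trace_smul, c.tr s, smul_zero]

/-- conjugation formula on the kernel of `ρ` -/
theorem Coc.b_conj_of_ker (g : G) {κ : G} (hκ : D.ρ κ = 1) :
    c.b (g * κ * g⁻¹) = (D.ρ g).det • (D.ρ g * c.b κ * D.ρ g⁻¹) := by
  have hκ' : D.ρ κ⁻¹ = 1 := by
    have := D.ρ_mul_inv κ
    rwa [hκ, one_mul] at this
  have hg := Basic.b_add_inv c g
  rw [mul_assoc, c.coc g (κ * g⁻¹), c.coc κ g⁻¹, hκ, hκ', Matrix.det_one, one_smul, one_mul,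
    mul_one, mul_add, add_mul, smul_add, add_left_comm, hg, add_zero]

end Fermat.Agent.S56.Sel
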