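/-
S56 / SEL-CORE (architect helper56), node SC-17: monomial representations are excluded
STUB: statements are frozen; the owner of the task replaces every `sorry` (helper lemmas welcome,
prefix their names with `CaseA1.`).
-/
import Fermat.Agent.S56.Sel.Core.Mat

set_option autoImplicit false

namespace Fermat.Agent.S56.Sel

open Matrix

variable {k G : Type} [Field k] [Group G]

variable (D : Core k G)

theorem CaseA1.det_ne_zero (g : G) : (D.ρ g).det ≠ 0 := by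
  intro h0
  have := congrArg Matrix.det (D.ρ_mul_inv g)
  rw [Matrix.det_mul, h0, zero_mul, Matrix.det_one] at this
  exact zero_ne_one this

theorem CaseA1.ρ_mul_apply (g h : G) (i j : Fin 2) :
    (D.ρ (g * h)) i j = (D.ρ g) i 0 * (D.ρ h) 0 j + (D.ρ g) i 1 * (D.ρ h) 1 j := by
  rw [map_mul, Matrix.mul_apply, Fin.sum_univ_two]

variable {D}

theorem CaseA1.diag_or_anti
    (h : ∀ g, (D.ρ g) 0 0 * (D.ρ g) 1 0 = 0 ∧ (D.ρ g) 0 1 * (D.ρ g) 1 1 = 0) (g : G) :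
    ((D.ρ g) 0 1 = 0 ∧ (D.ρ g) 1 0 = 0) ∨ ((D.ρ g) 0 0 = 0 ∧ (D.ρ g) 1 1 = 0) := by
  have hd := CaseA1.det_ne_zero D g
  rw [Matrix.det_fin_two] at hd
  obtain ⟨h1, h2⟩ := h g
  by_cases hA : (D.ρ g) 0 0 = 0
  · right
    refine ⟨hA, ?_⟩
    rcases mul_eq_zero.1 h2 with hB | hD
    · exfalso
      apply hd
      rw [hA, hB]
      ring
    · exact hD
  · left
    have hC : (D.ρ g) 1 0 = 0 := (mul_eq_zero.1 h1).resolve_left hA
    refine ⟨?_, hC⟩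
    rcases mul_eq_zero.1 h2 with hB | hD
    · exact hB
    · exfalso
      apply hd
      rw [hC, hD]
      ring

/-- the subgroup of the `g` with `ρ g` diagonal -/
def CaseA1.diagSub
    (h : ∀ g, (D.ρ g) 0 0 * (D.ρ g) 1 0 = 0 ∧ (D.ρ g) 0 1 * (D.ρ g) 1 1 = 0) : Subgroup G where
  carrier := {g | (D.ρ g) 0 1 = 0 ∧ (D.ρ g) 1 0 = 0}
  mul_mem' := by
    rintro a b ⟨ha1, ha2⟩ ⟨hb1, hb2⟩
    refine ⟨?_, ?_⟩
    · rw [CaseA1.ρ_mul_apply, hb1, ha1, mul_zero, zero_mul, add_zero]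
    · rw [CaseA1.ρ_mul_apply, hb2, ha2, mul_zero, zero_mul, add_zero]
  one_mem' := by
    refine ⟨?_, ?_⟩
    · rw [map_one]
      exact Matrix.one_apply_ne (by decide)
    · rw [map_one]
      exact Matrix.one_apply_ne (by decide)
  inv_mem' := by
    rintro a ⟨ha1, ha2⟩
    rcases CaseA1.diag_or_anti h a⁻¹ with h' | ⟨h1, h2⟩
    · exact h'
    · exfalso
      have e := CaseA1.ρ_mul_apply D a a⁻¹ 0 0
      rw [mul_inv_cancel, map_one, h1, ha1, mul_zero, zero_mul, add_zero,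
        Matrix.one_apply_eq] at e
      exact one_ne_zero e

theorem CaseA1.mem_diagSub
    (h : ∀ g, (D.ρ g) 0 0 * (D.ρ g) 1 0 = 0 ∧ (D.ρ g) 0 1 * (D.ρ g) 1 1 = 0) (g : G) :
    g ∈ CaseA1.diagSub h ↔ (D.ρ g) 0 1 = 0 ∧ (D.ρ g) 1 0 = 0 := Iff.rfl

theorem CaseA1.stableLine
    (h : ∀ g, (D.ρ g) 0 0 * (D.ρ g) 1 0 = 0 ∧ (D.ρ g) 0 1 * (D.ρ g) 1 1 = 0) :
    StableLine D.ρ (CaseA1.diagSub h) ![1, 0] := by
  refine ⟨fun h0 => one_ne_zero (congrFun h0 0), fun g hg => ⟨(D.ρ g) 0 0, ?_⟩⟩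
  obtain ⟨-, hg2⟩ := hg
  funext i
  fin_cases i
  · simp [Matrix.mulVec, dotProduct, Fin.sum_univ_two]
  · simp [Matrix.mulVec, dotProduct, Fin.sum_univ_two, hg2]

variable (D)

/-- if every `ρ g` is diagonal or antidiagonal there is a stable line for a subgroup of index `≤ 2` -/
theorem false_of_monomial (h : ∀ g, (D.ρ g) 0 0 * (D.ρ g) 1 0 = 0 ∧ (D.ρ g) 0 1 * (D.ρ g) 1 1 = 0) :
    False := by
  refine D.irr (CaseA1.diagSub h) ?_ _ (CaseA1.stableLine h)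
  by_cases htop : CaseA1.diagSub h = ⊤
  · exact Or.inl htop
  right
  obtain ⟨a, ha⟩ : ∃ a, a ∉ CaseA1.diagSub h := by
    by_contra hcon
    push Not at hcon
    exact htop ((Subgroup.eq_top_iff' _).2 hcon)
  have haA : (D.ρ a) 0 0 = 0 ∧ (D.ρ a) 1 1 = 0 := (CaseA1.diag_or_anti h a).resolve_left ha
  rw [Subgroup.index_eq_two_iff]
  refine ⟨a, fun b => ?_⟩
  by_cases hb : b ∈ CaseA1.diagSub h
  · refine Or.inr ⟨hb, fun hba => ha ?_⟩
    have := (CaseA1.diagSub h).mul_mem ((CaseA1.diagSub h).inv_mem hb) hba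
    rwa [inv_mul_cancel_left] at this
  · refine Or.inl ⟨?_, hb⟩
    have hbA : (D.ρ b) 0 0 = 0 ∧ (D.ρ b) 1 1 = 0 := (CaseA1.diag_or_anti h b).resolve_left hb
    refine ⟨?_, ?_⟩
    · rw [CaseA1.ρ_mul_apply, hbA.1, haA.2, zero_mul, mul_zero, add_zero]
    · rw [CaseA1.ρ_mul_apply, hbA.2, haA.1, zero_mul, mul_zero, add_zero]

end Fermat.Agent.S56.Sel
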