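/-
S56 / SEL-CORE (architect helper56), node SC-18a: a stable line of ad0 spanned by an invertible X: a subgroup of index <= 2 commutes with X
-/
import Fermat.Agent.S56.Sel.Core.Mat

set_option autoImplicit false

namespace Fermat.Agent.S56.Sel

open Matrix

variable {k G : Type} [Field k] [Group G]

variable (D : Core k G)

/-- the centraliser of `X` in `G` -/
def CaseA2a.cent (X : M2 k) : Subgroup G where
  carrier := {g | D.ρ g * X = X * D.ρ g}
  one_mem' := by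
    change D.ρ 1 * X = X * D.ρ 1
    rw [map_one, one_mul, mul_one]
  mul_mem' := by
    intro a b ha hb
    change D.ρ (a * b) * X = X * D.ρ (a * b)
    have ha' : D.ρ a * X = X * D.ρ a := ha
    have hb' : D.ρ b * X = X * D.ρ b := hb
    rw [map_mul, mul_assoc, hb', ← mul_assoc, ha', mul_assoc]
  inv_mem' := by
    intro a ha
    change D.ρ a⁻¹ * X = X * D.ρ a⁻¹
    have ha' : D.ρ a * X = X * D.ρ a := ha
    calc D.ρ a⁻¹ * X = D.ρ a⁻¹ * X * (D.ρ a * D.ρ a⁻¹) := by rw [D.ρ_mul_inv, mul_one]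
      _ = D.ρ a⁻¹ * (X * D.ρ a) * D.ρ a⁻¹ := by simp only [mul_assoc]
      _ = D.ρ a⁻¹ * (D.ρ a * X) * D.ρ a⁻¹ := by rw [ha']
      _ = (D.ρ a⁻¹ * D.ρ a) * X * D.ρ a⁻¹ := by simp only [mul_assoc]
      _ = X * D.ρ a⁻¹ := by rw [D.ρ_inv_mul, one_mul]

theorem CaseA2a.mem_cent {X : M2 k} {g : G} :
    g ∈ CaseA2a.cent D X ↔ D.ρ g * X = X * D.ρ g := Iff.rfl

theorem CaseA2a.comm_or_anti (X : M2 k) (hdet : X.det ≠ 0)
    (h : ∀ g, ∃ χ : k, D.ρ g * X * D.ρ g⁻¹ = χ • X) (g : G) :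
    D.ρ g * X = X * D.ρ g ∨ D.ρ g * X = -(X * D.ρ g) := by
  obtain ⟨χ, hχ⟩ := h g
  have h1 : D.ρ g * X = χ • (X * D.ρ g) := by
    calc D.ρ g * X = D.ρ g * X * (D.ρ g⁻¹ * D.ρ g) := by rw [D.ρ_inv_mul, mul_one]
      _ = (D.ρ g * X * D.ρ g⁻¹) * D.ρ g := by simp only [mul_assoc]
      _ = χ • (X * D.ρ g) := by rw [hχ, smul_mul_assoc]
  have h2 : χ ^ 2 = 1 := by
    have hd := congrArg Matrix.det hχ
    rw [Matrix.det_mul, Matrix.det_mul, Matrix.det_smul, Fintype.card_fin] at hd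
    have hgg : (D.ρ g).det * (D.ρ g⁻¹).det = 1 := by
      rw [← Matrix.det_mul, D.ρ_mul_inv, Matrix.det_one]
    have h3 : X.det = χ ^ 2 * X.det := by
      rw [← hd]
      calc X.det = ((D.ρ g).det * (D.ρ g⁻¹).det) * X.det := by rw [hgg, one_mul]
        _ = (D.ρ g).det * X.det * (D.ρ g⁻¹).det := by ring
    have h4 : (χ ^ 2 - 1) * X.det = 0 := by
      rw [sub_mul, one_mul, ← h3, sub_self]
    rcases mul_eq_zero.1 h4 with h5 | h5
    · exact sub_eq_zero.1 h5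
    · exact absurd h5 hdet
  have h6 : χ = 1 ∨ χ = -1 := by
    have h7 : (χ - 1) * (χ + 1) = 0 := by
      have : (χ - 1) * (χ + 1) = χ ^ 2 - 1 := by ring
      rw [this, h2, sub_self]
    rcases mul_eq_zero.1 h7 with h8 | h8
    · exact Or.inl (sub_eq_zero.1 h8)
    · exact Or.inr (eq_neg_of_add_eq_zero_left h8)
  rcases h6 with rfl | rfl
  · left
    rw [h1, one_smul]
  · right
    rw [h1, neg_smul, one_smul]

theorem exists_commuting_subgroup (X : M2 k) (hdet : X.det ≠ 0)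
    (h : ∀ g, ∃ χ : k, D.ρ g * X * D.ρ g⁻¹ = χ • X) :
    ∃ H : Subgroup G, (H = ⊤ ∨ H.index = 2) ∧ ∀ g ∈ H, D.ρ g * X = X * D.ρ g := by
  refine ⟨CaseA2a.cent D X, ?_, fun g hg => hg⟩
  by_cases htop : CaseA2a.cent D X = ⊤
  · exact Or.inl htop
  right
  obtain ⟨a, ha⟩ : ∃ a : G, a ∉ CaseA2a.cent D X := by
    by_contra hcon
    exact htop ((Subgroup.eq_top_iff' _).2 fun g => by
      by_contra hg
      exact hcon ⟨g, hg⟩)
  have anti : ∀ g : G, g ∉ CaseA2a.cent D X → D.ρ g * X = -(X * D.ρ g) := by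
    intro g hg
    rcases CaseA2a.comm_or_anti D X hdet h g with h1 | h1
    · exact absurd h1 hg
    · exact h1
  rw [Subgroup.index_eq_two_iff]
  refine ⟨a, fun b => ?_⟩
  by_cases hb : b ∈ CaseA2a.cent D X
  · refine Or.inr ⟨hb, fun hba => ha ?_⟩
    have := (CaseA2a.cent D X).mul_mem ((CaseA2a.cent D X).inv_mem hb) hba
    rwa [inv_mul_cancel_left] at this
  · refine Or.inl ⟨?_, hb⟩
    rw [CaseA2a.mem_cent, map_mul, mul_assoc, anti a ha, mul_neg, ← mul_assoc, anti b hb, neg_mul,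
      neg_neg, mul_assoc]

end Fermat.Agent.S56.Sel
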