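/-
S56 / SEL-CORE (architect helper56), node SC-18b: a subgroup of index <= 2 cannot commute with a trace zero invertible X
(`exists_eq_add_smul_of_commute` needs `2 ≠ 0`: in characteristic two `X = 1` has trace zero.)
-/
import Fermat.Agent.S56.Sel.Core.Mat

set_option autoImplicit false

namespace Fermat.Agent.S56.Sel

open Matrix

variable {k G : Type} [Field k] [Group G]

variable (D : Core k G)

/-- the centraliser of a non scalar matrix -/
theorem exists_eq_add_smul_of_commute (h2 : (2 : k) ≠ 0) (X : M2 k) (htr : X.trace = 0)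
    (hX : X ≠ 0) (A : M2 k) (h : A * X = X * A) : ∃ a b : k, A = a • (1 : M2 k) + b • X := by
  have e00 := congrFun (congrFun h 0) 0
  have e01 := congrFun (congrFun h 0) 1
  have e10 := congrFun (congrFun h 1) 0
  simp only [Matrix.mul_apply, Fin.sum_univ_two] at e00 e01 e10
  rw [Matrix.trace_fin_two] at htr
  have hw : X 1 1 = - X 0 0 := by linear_combination htr
  rw [hw] at e01 e10
  by_cases hy : X 0 1 = 0
  · by_cases hz : X 1 0 = 0
    · have hx : X 0 0 ≠ 0 := by
        intro hx
        apply hX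
        ext i j
        fin_cases i <;> fin_cases j <;> simp [hx, hy, hz, hw]
      rw [hy] at e01
      rw [hz] at e10
      have hb : A 0 1 = 0 := by
        have : (2 * X 0 0) * A 0 1 = 0 := by linear_combination - e01
        exact (mul_eq_zero.1 this).resolve_left (mul_ne_zero h2 hx)
      have hc : A 1 0 = 0 := by
        have : (2 * X 0 0) * A 1 0 = 0 := by linear_combination e10
        exact (mul_eq_zero.1 this).resolve_left (mul_ne_zero h2 hx)
      refine ⟨(A 0 0 + A 1 1) / 2, (A 0 0 - A 1 1) / (2 * X 0 0), ?_⟩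
      ext i j
      fin_cases i <;> fin_cases j <;> simp [hy, hz, hw, hb, hc] <;> field_simp <;> ring
    · refine ⟨A 0 0 - A 1 0 / X 1 0 * X 0 0, A 1 0 / X 1 0, ?_⟩
      ext i j
      fin_cases i <;> fin_cases j <;> simp [hw] <;> field_simp
      · linear_combination e00
      · linear_combination e10
  · refine ⟨A 0 0 - A 0 1 / X 0 1 * X 0 0, A 0 1 / X 0 1, ?_⟩
    ext i j
    fin_cases i <;> fin_cases j <;> simp [hw] <;> field_simp
    · linear_combination - e00
    · linear_combination - e01

/-- two eigenvectors for the eigenvalue `e ≠ 0` of a trace zero matrix are proportional -/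
theorem CaseA2b.exists_smul_of_eigen (h2 : (2 : k) ≠ 0) (X : M2 k) (htr : X.trace = 0) (e : k)
    (he : e ≠ 0) (v w : Fin 2 → k) (hv0 : v ≠ 0) (hv : X.mulVec v = e • v)
    (hw : X.mulVec w = e • w) : ∃ c : k, w = c • v := by
  have v0 := congrFun hv 0
  have v1 := congrFun hv 1
  have w0 := congrFun hw 0
  have w1 := congrFun hw 1
  simp only [Matrix.mulVec, dotProduct, Fin.sum_univ_two, Pi.smul_apply, smul_eq_mul]
    at v0 v1 w0 w1
  rw [Matrix.trace_fin_two] at htr
  have hX11 : X 1 1 = - X 0 0 := by linear_combination htr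
  rw [hX11] at v1 w1
  have hδ : v 0 * w 1 - v 1 * w 0 = 0 := by
    have : (2 * e) * (v 0 * w 1 - v 1 * w 0) = 0 := by
      linear_combination (- w 1) * v0 + (w 0) * v1 + (v 1) * w0 - (v 0) * w1
    exact (mul_eq_zero.1 this).resolve_left (mul_ne_zero h2 he)
  by_cases h0 : v 0 = 0
  · have h1 : v 1 ≠ 0 := by
      intro h1
      apply hv0
      ext i
      fin_cases i
      · exact h0
      · exact h1
    refine ⟨w 1 / v 1, ?_⟩
    ext i
    fin_cases i
    · simp only [Fin.zero_eta, Pi.smul_apply, smul_eq_mul]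
      field_simp
      linear_combination - hδ
    · simp only [Fin.mk_one, Pi.smul_apply, smul_eq_mul]
      field_simp
  · refine ⟨w 0 / v 0, ?_⟩
    ext i
    fin_cases i
    · simp only [Fin.zero_eta, Pi.smul_apply, smul_eq_mul]
      field_simp
    · simp only [Fin.mk_one, Pi.smul_apply, smul_eq_mul]
      field_simp
      linear_combination hδ

/-- case `- det X` is a square -/
theorem false_of_commute_sq (h2 : (2 : k) ≠ 0) (X : M2 k) (htr : X.trace = 0) (e : k) (he : e ≠ 0)
    (hdet : X.det = - e ^ 2) (H : Subgroup G) (hH : H = ⊤ ∨ H.index = 2)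
    (h : ∀ g ∈ H, D.ρ g * X = X * D.ρ g) : False := by
  obtain ⟨v, hv0, hv⟩ := exists_eigenvector X e (-e) (by rw [htr]; ring) (by rw [hdet]; ring)
  refine D.irr H hH v ⟨hv0, fun g hg => ?_⟩
  apply CaseA2b.exists_smul_of_eigen h2 X htr e he v _ hv0 hv
  rw [Matrix.mulVec_mulVec, ← h g hg, ← Matrix.mulVec_mulVec, hv, Matrix.mulVec_smul]

/-- case `- det X` is not a square -/
theorem false_of_commute_nsq (h2 : (2 : k) ≠ 0) (X : M2 k) (htr : X.trace = 0)
    (hdet : ∀ e : k, X.det ≠ - e ^ 2) (H : Subgroup G) (hH : H = ⊤ ∨ H.index = 2)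
    (h : ∀ g ∈ H, D.ρ g * X = X * D.ρ g) : False := by
  have hX : X ≠ 0 := by
    rintro rfl
    apply hdet 0
    simp
  refine D.irr H hH ![1, 0] ⟨fun h0 => one_ne_zero (congrFun h0 0), fun g hg => ?_⟩
  obtain ⟨a, b, hab⟩ := exists_eq_add_smul_of_commute h2 X htr hX (D.ρ g) (h g hg)
  obtain ⟨α, β, ht, hd⟩ := D.split g
  have htr' := htr
  rw [Matrix.trace_fin_two] at htr'
  have hX11 : X 1 1 = - X 0 0 := by linear_combination htr'
  have ht' : (D.ρ g).trace = 2 * a := by
    rw [hab, Matrix.trace_add, Matrix.trace_smul, Matrix.trace_smul, htr, Matrix.trace_one]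
    simp
    ring
  have hd' : (D.ρ g).det = a ^ 2 + b ^ 2 * X.det := by
    rw [hab, Matrix.det_fin_two, Matrix.det_fin_two]
    simp [hX11]
    ring
  have hb : b = 0 := by
    by_contra hb
    apply hdet ((α - β) / (2 * b))
    have h1 : (α - β) ^ 2 = - (4 * b ^ 2 * X.det) := by
      linear_combination (- (α + β) - 2 * a) * ht + (α + β + 2 * a) * ht' + 4 * hd - 4 * hd'
    field_simp
    linear_combination h1
  refine ⟨a, ?_⟩
  rw [hab, hb, zero_smul, add_zero]
  ext i
  fin_cases i <;> simp [Matrix.mulVec, dotProduct, Fin.sum_univ_two]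

end Fermat.Agent.S56.Sel
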