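/-
S56 / SEL-CORE (architect helper56), node SC-2: nilpotent 2 x 2 matrices
-/
import Fermat.Agent.S56.Sel.Core.Mat

set_option autoImplicit false

namespace Fermat.Agent.S56.Sel

open Matrix

variable {k G : Type} [Field k] [Group G]

/-- the entries of a nilpotent matrix -/
theorem Nil.entries {n : M2 k} (hn : IsNil n) :
    n 1 1 = - n 0 0 ∧ n 0 0 * n 0 0 + n 0 1 * n 1 0 = 0 := by
  have h1 := hn.tr
  have h2 := hn.det
  rw [Matrix.trace_fin_two] at h1
  rw [Matrix.det_fin_two] at h2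
  have h3 : n 1 1 = - n 0 0 := by linear_combination h1
  refine ⟨h3, ?_⟩
  rw [h3] at h2
  linear_combination -h2

theorem IsNil.sq {n : M2 k} (hn : IsNil n) : n * n = 0 := by
  rw [cayley, hn.tr, hn.det, zero_smul, zero_smul, sub_zero]

theorem IsNil.mul_mul {n : M2 k} (hn : IsNil n) (Z : M2 k) : n * Z * n = (Z * n).trace • n := by
  have hp := polar n Z
  rw [hn.tr, zero_smul, zero_add, zero_mul, sub_zero] at hp
  have h1 : n * Z * n = (n * Z + Z * n) * n - Z * (n * n) := by
    rw [add_mul, mul_assoc Z n n, add_sub_cancel_right]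
  rw [h1, hp, hn.sq, mul_zero, sub_zero, add_mul, smul_mul_assoc, hn.sq, smul_zero, zero_add,
    smul_mul_assoc, one_mul, Matrix.trace_mul_comm]

theorem IsNil.conj {n : M2 k} (hn : IsNil n) {g g' : M2 k} (h : g * g' = 1) (h' : g' * g = 1) :
    IsNil (g * n * g') :=
  ⟨by rw [trace_conj h', hn.tr], by rw [det_conj h, hn.det]⟩

/-- two vectors orthogonal to the same nonzero vector are proportional -/
theorem Nil.exists_smul_of_orth (p q : k) (hpq : p ≠ 0 ∨ q ≠ 0) (v w : Fin 2 → k) (hv : v ≠ 0)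
    (h1 : p * v 0 + q * v 1 = 0) (h2 : p * w 0 + q * w 1 = 0) : ∃ c : k, w = c • v := by
  have hdet : w 0 * v 1 - w 1 * v 0 = 0 := by
    rcases hpq with hp | hq
    · refine (mul_eq_zero.1 (?_ : p * (w 0 * v 1 - w 1 * v 0) = 0)).resolve_left hp
      linear_combination v 1 * h2 - w 1 * h1
    · refine (mul_eq_zero.1 (?_ : q * (w 0 * v 1 - w 1 * v 0) = 0)).resolve_left hq
      linear_combination w 0 * h1 - v 0 * h2
  by_cases hv0 : v 0 = 0
  · have hv1 : v 1 ≠ 0 := by
      intro hv1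
      apply hv
      ext i
      fin_cases i
      · exact hv0
      · exact hv1
    refine ⟨w 1 / v 1, ?_⟩
    ext i
    fin_cases i
    · simp only [Fin.zero_eta, Pi.smul_apply, smul_eq_mul, hv0, mul_zero]
      rw [hv0, mul_zero, sub_zero] at hdet
      exact (mul_eq_zero.1 hdet).resolve_right hv1
    · simp only [Fin.mk_one, Pi.smul_apply, smul_eq_mul]
      rw [div_mul_cancel₀ _ hv1]
  · refine ⟨w 0 / v 0, ?_⟩
    ext i
    fin_cases i
    · simp only [Fin.zero_eta, Pi.smul_apply, smul_eq_mul]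
      rw [div_mul_cancel₀ _ hv0]
    · simp only [Fin.mk_one, Pi.smul_apply, smul_eq_mul]
      field_simp
      linear_combination -hdet

/-- a nonzero matrix has a nonzero column -/
theorem Nil.exists_col {n : M2 k} (h0 : n ≠ 0) : ∃ j : Fin 2, (fun i => n i j) ≠ 0 := by
  by_contra hcon
  push Not at hcon
  apply h0
  ext i j
  exact congrFun (hcon j) i

/-- a nonzero matrix has a nonzero row -/
theorem Nil.exists_row {n : M2 k} (h0 : n ≠ 0) : ∃ i : Fin 2, n i 0 ≠ 0 ∨ n i 1 ≠ 0 := by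
  by_contra hcon
  push Not at hcon
  apply h0
  ext i j
  fin_cases j
  · exact (hcon i).1
  · exact (hcon i).2

theorem IsNil.exists_vec {n : M2 k} (hn : IsNil n) (h0 : n ≠ 0) :
    ∃ v : Fin 2 → k, v ≠ 0 ∧ n.mulVec v = 0 ∧ (∃ w, n.mulVec w = v) ∧
      ∀ w, n.mulVec w = 0 → ∃ c : k, w = c • v := by
  obtain ⟨j, hj⟩ := Nil.exists_col h0
  obtain ⟨i, hi⟩ := Nil.exists_row h0
  have hcol : n.mulVec (Pi.single j 1) = fun i => n i j := by
    ext i
    simp [Matrix.mulVec_single]
  have hker : n.mulVec (fun i => n i j) = 0 := by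
    rw [← hcol, Matrix.mulVec_mulVec, hn.sq, Matrix.zero_mulVec]
  refine ⟨fun i => n i j, hj, hker, ⟨_, hcol⟩, fun w hw => ?_⟩
  have e1 := congrFun hker i
  have e2 := congrFun hw i
  simp only [Matrix.mulVec, dotProduct, Fin.sum_univ_two, Pi.zero_apply] at e1 e2
  exact Nil.exists_smul_of_orth (n i 0) (n i 1) hi _ w hj e1 e2

theorem IsNil.mul_eq_zero_of_trace {n n' : M2 k} (hn : IsNil n) (hn' : IsNil n')
    (h : (n * n').trace = 0) : n * n' = 0 := by
  obtain ⟨hd, hq⟩ := Nil.entries hn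
  obtain ⟨hd', hq'⟩ := Nil.entries hn'
  rw [Matrix.trace_fin_two, Matrix.mul_apply, Matrix.mul_apply, Fin.sum_univ_two,
    Fin.sum_univ_two, hd, hd'] at h
  ext i j
  fin_cases i <;> fin_cases j <;>
    simp only [Fin.zero_eta, Fin.mk_one, Matrix.mul_apply, Fin.sum_univ_two, Matrix.zero_apply,
      hd, hd']
  · refine pow_eq_zero_iff (two_ne_zero) |>.1 ?_
    linear_combination (n 0 1 * n' 1 0) * h + (n' 0 0 * n' 0 0) * hq - (n 0 1 * n 1 0) * hq'
  · refine pow_eq_zero_iff (two_ne_zero) |>.1 ?_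
    linear_combination (-(n 0 1 * n' 0 1)) * h + (n' 0 1 * n' 0 1) * hq + (n 0 1 * n 0 1) * hq'
  · refine pow_eq_zero_iff (two_ne_zero) |>.1 ?_
    linear_combination (-(n 1 0 * n' 1 0)) * h + (n' 1 0 * n' 1 0) * hq + (n 1 0 * n 1 0) * hq'
  · refine pow_eq_zero_iff (two_ne_zero) |>.1 ?_
    linear_combination (n 1 0 * n' 0 1) * h + (n' 0 0 * n' 0 0) * hq - (n 0 1 * n 1 0) * hq'

theorem IsNil.eq_smul_of_mul_eq_zero {n n' : M2 k} (hn : IsNil n) (h0 : n ≠ 0) (hn' : IsNil n')
    (h : n * n' = 0) : ∃ μ : k, n' = μ • n := by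
  obtain ⟨hd, hq⟩ := Nil.entries hn
  obtain ⟨hd', hq'⟩ := Nil.entries hn'
  have e00 := congrFun (congrFun h 0) 0
  have e01 := congrFun (congrFun h 0) 1
  have e10 := congrFun (congrFun h 1) 0
  have e11 := congrFun (congrFun h 1) 1
  simp only [Matrix.mul_apply, Fin.sum_univ_two, Matrix.zero_apply, hd, hd'] at e00 e01 e10 e11
  by_cases hb : n 0 1 = 0
  · by_cases hc : n 1 0 = 0
    · exfalso
      rw [hb, zero_mul, add_zero] at hq
      have ha : n 0 0 = 0 := mul_self_eq_zero.1 hq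
      apply h0
      ext i j
      fin_cases i <;> fin_cases j
      · exact ha
      · exact hb
      · exact hc
      · show n 1 1 = 0
        rw [hd, ha, neg_zero]
    · refine ⟨n' 1 0 / n 1 0, ?_⟩
      ext i j
      fin_cases i <;> fin_cases j <;>
        simp only [Fin.zero_eta, Fin.mk_one, Matrix.smul_apply, smul_eq_mul, hd, hd'] <;>
        field_simp
      · linear_combination e10
      · apply mul_left_cancel₀ hc
        linear_combination (n 1 0) * e11 - n 0 0 * e10 - n' 1 0 * hq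
      · linear_combination -e10
  · refine ⟨n' 0 1 / n 0 1, ?_⟩
    ext i j
    fin_cases i <;> fin_cases j <;>
      simp only [Fin.zero_eta, Fin.mk_one, Matrix.smul_apply, smul_eq_mul, hd, hd'] <;>
      field_simp
    · linear_combination -e01
    · apply mul_left_cancel₀ hb
      linear_combination (n 0 1) * e00 + n 0 0 * e01 - n' 0 1 * hq
    · linear_combination e01

theorem IsNil.mul_sq {n : M2 k} (hn : IsNil n) (n' : M2 k) :
    (n * n') * (n * n') = (n * n').trace • (n * n') := by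
  rw [cayley (n * n'), Matrix.det_mul, hn.det, zero_mul, zero_smul, sub_zero]

theorem Nil.trace_of_isNil_sub_one {u : M2 k} (h : IsNil (u - 1)) : u.trace = 2 :=
  ((isNil_sub_one_iff u).1 h).1

/-- traces of products of unipotent matrices -/
theorem trace_pow_mul {u u' : M2 k} (h : IsNil (u - 1)) (h' : IsNil (u' - 1)) (m : ℕ) :
    (u ^ m * u').trace = 2 + (m : k) * ((u - 1) * (u' - 1)).trace := by
  have e1 : (u - 1) * u' = (u - 1) * (u' - 1) + (u - 1) := by
    rw [mul_sub, mul_one, sub_add_cancel]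
  rw [pow_of_isNil h, add_mul, one_mul, smul_mul_assoc, Matrix.trace_add, Matrix.trace_smul, e1,
    Matrix.trace_add, h.tr, add_zero, Nil.trace_of_isNil_sub_one h', smul_eq_mul]

theorem trace_pow_mul_inv {u u' u'' : M2 k} (h : IsNil (u - 1)) (h' : IsNil (u' - 1))
    (hi : u' * u'' = 1) (m : ℕ) :
    (u ^ m * u'').trace = 2 - (m : k) * ((u - 1) * (u' - 1)).trace := by
  obtain ⟨ht, hd⟩ := (isNil_sub_one_iff u').1 h'
  have e0 : u'' = 1 - (u' - 1) := by
    rw [inv_eq_of_det_one hi hd, ht, two_smul]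
    abel
  have e1 : (u - 1) * u'' = (u - 1) - (u - 1) * (u' - 1) := by
    rw [e0, mul_sub, mul_one]
  have e2 : u''.trace = 2 := by
    rw [e0, Matrix.trace_sub, h'.tr, sub_zero, Matrix.trace_one, Fintype.card_fin]
    norm_num
  rw [pow_of_isNil h, add_mul, one_mul, smul_mul_assoc, Matrix.trace_add, Matrix.trace_smul, e1,
    Matrix.trace_sub, h.tr, zero_sub, e2, smul_eq_mul]
  ring

end Fermat.Agent.S56.Sel
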