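/-
S56 / SEL-CORE (architect helper56), node SC-18: ad0 has no G-stable line
Statements are frozen.
-/
import Fermat.Agent.S56.Sel.Core.CaseA2a
import Fermat.Agent.S56.Sel.Core.CaseA2b
import Fermat.Agent.S56.Sel.Core.Nil

set_option autoImplicit false

namespace Fermat.Agent.S56.Sel

open Matrix

variable {k G : Type} [Field k] [Group G]

variable (D : Core k G)

theorem false_of_stable_ad_line (h2 : (2 : k) ≠ 0) (X : M2 k) (hX : X ≠ 0) (htr : X.trace = 0)
    (h : ∀ g, ∃ χ : k, D.ρ g * X * D.ρ g⁻¹ = χ • X) : False := by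
  by_cases hdet : X.det = 0
  · have hn : IsNil X := ⟨htr, hdet⟩
    obtain ⟨v, hv0, hXv, -, hker⟩ := hn.exists_vec hX
    refine D.irr ⊤ (Or.inl rfl) v ⟨hv0, fun g _ => ?_⟩
    obtain ⟨χ, hχ⟩ := h g
    have h1 : D.ρ g * X = χ • (X * D.ρ g) := by
      have h0 := congrArg (· * D.ρ g) hχ
      simp only [mul_assoc, D.ρ_inv_mul, mul_one, smul_mul_assoc] at h0
      exact h0
    have hχ0 : χ ≠ 0 := by
      rintro rfl
      rw [zero_smul] at h1
      apply hX
      have h0 : D.ρ g⁻¹ * (D.ρ g * X) = 0 := by rw [h1, mul_zero]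
      rwa [← mul_assoc, D.ρ_inv_mul, one_mul] at h0
    have h3 : X.mulVec ((D.ρ g).mulVec v) = 0 := by
      have h4 : (D.ρ g * X).mulVec v = 0 := by
        rw [← Matrix.mulVec_mulVec, hXv, Matrix.mulVec_zero]
      rw [h1, Matrix.smul_mulVec, ← Matrix.mulVec_mulVec] at h4
      exact (smul_eq_zero.mp h4).resolve_left hχ0
    exact hker _ h3
  · obtain ⟨H, hH, hc⟩ := exists_commuting_subgroup D X hdet h
    by_cases he : ∃ e : k, X.det = - e ^ 2
    · obtain ⟨e, he⟩ := he
      have he0 : e ≠ 0 := by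
        rintro rfl
        apply hdet
        rw [he]
        simp
      exact false_of_commute_sq D h2 X htr e he0 he H hH hc
    · exact false_of_commute_nsq D h2 X htr (fun e h' => he ⟨e, h'⟩) H hH hc

end Fermat.Agent.S56.Sel
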