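/-
S56 / SEL-CORE (architect helper56), node SC-19: a nonzero G-stable set of trace zero matrices contains a matrix with nonzero diagonal
STUB: statements are frozen; the owner of the task replaces every `sorry` (helper lemmas welcome,
prefix their names with `CaseA3.`).
-/
import Fermat.Agent.S56.Sel.Core.CaseA1
import Fermat.Agent.S56.Sel.Core.CaseA2

set_option autoImplicit false

namespace Fermat.Agent.S56.Sel

open Matrix

variable {k G : Type} [Field k] [Group G]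

theorem CaseA3.smul_inv {R R' : M2 k} (h : R * R' = 1) : R.det • R' = R.adjugate := by
  calc R.det • R' = (R.det • (1 : M2 k)) * R' := by rw [smul_mul_assoc, one_mul]
    _ = (R.adjugate * R) * R' := by rw [Matrix.adjugate_mul]
    _ = R.adjugate * (R * R') := Matrix.mul_assoc _ _ _
    _ = R.adjugate := by rw [h, mul_one]

theorem CaseA3.entry {R R' w : M2 k} (h : R * R' = 1) (h0 : w 0 0 = 0) (h1 : w 1 1 = 0) :
    (R.det • (R * w * R')) 0 0 = R 0 1 * R 1 1 * w 1 0 - R 0 0 * R 1 0 * w 0 1 := by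
  rw [← Matrix.mul_smul, CaseA3.smul_inv h, Matrix.adjugate_fin_two]
  simp [Matrix.mul_apply, Fin.sum_univ_two, h0, h1]
  ring

theorem CaseA3.exists_smul {w0 w' : M2 k} (h00 : w0 0 0 = 0) (h11 : w0 1 1 = 0)
    (h00' : w' 0 0 = 0) (h11' : w' 1 1 = 0) (hne : w0 ≠ 0)
    (h : w0 0 1 * w' 1 0 - w' 0 1 * w0 1 0 = 0) : ∃ χ : k, w' = χ • w0 := by
  by_cases hy : w0 0 1 = 0
  · have hz : w0 1 0 ≠ 0 := by
      intro hz
      apply hne
      ext i j
      fin_cases i <;> fin_cases j <;> simp [h00, h11, hy, hz]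
    refine ⟨w' 1 0 / w0 1 0, ?_⟩
    have hy' : w' 0 1 = 0 := by
      rw [hy, zero_mul, zero_sub, neg_eq_zero] at h
      exact (mul_eq_zero.1 h).resolve_right hz
    ext i j
    fin_cases i <;> fin_cases j <;> simp [h00, h11, h00', h11', hy, hy', hz]
  · refine ⟨w' 0 1 / w0 0 1, ?_⟩
    have h10 : w' 1 0 = w' 0 1 / w0 0 1 * w0 1 0 := by
      field_simp
      linear_combination h
    ext i j
    fin_cases i <;> fin_cases j <;> simp [h00, h11, h00', h11', hy, ← h10]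

variable (D : Core k G)

theorem exists_diag_ne_zero (h2 : (2 : k) ≠ 0) (W : Set (M2 k)) (htr : ∀ w ∈ W, w.trace = 0)
    (hst : ∀ g, ∀ w ∈ W, (D.ρ g).det • (D.ρ g * w * D.ρ g⁻¹) ∈ W) (hne : ∃ w ∈ W, w ≠ 0) :
    ∃ w ∈ W, w 0 0 ≠ 0 := by
  by_contra hcon
  push_neg at hcon
  have h11 : ∀ w ∈ W, w 1 1 = 0 := by
    intro w hw
    have := htr w hw
    rw [Matrix.trace_fin_two, hcon w hw, zero_add] at this
    exact this
  have hrel : ∀ g, ∀ w ∈ W,
      (D.ρ g) 0 1 * (D.ρ g) 1 1 * w 1 0 - (D.ρ g) 0 0 * (D.ρ g) 1 0 * w 0 1 = 0 := by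
    intro g w hw
    rw [← CaseA3.entry (D.ρ_mul_inv g) (hcon w hw) (h11 w hw)]
    exact hcon _ (hst g w hw)
  obtain ⟨w0, hw0, hw0ne⟩ := hne
  by_cases hall : ∀ w ∈ W, w0 0 1 * w 1 0 - w 0 1 * w0 1 0 = 0
  · apply false_of_stable_ad_line D h2 w0 hw0ne (htr w0 hw0)
    intro g
    have hdet : (D.ρ g).det ≠ 0 := by
      intro h0
      have := congrArg Matrix.det (D.ρ_mul_inv g)
      rw [Matrix.det_mul, h0, zero_mul, Matrix.det_one] at this
      exact zero_ne_one this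
    have hw'W : (D.ρ g).det • (D.ρ g * w0 * D.ρ g⁻¹) ∈ W := hst g w0 hw0
    obtain ⟨χ, hχ⟩ := CaseA3.exists_smul (hcon w0 hw0) (h11 w0 hw0) (hcon _ hw'W) (h11 _ hw'W)
      hw0ne (hall _ hw'W)
    refine ⟨(D.ρ g).det⁻¹ * χ, ?_⟩
    rw [mul_smul, ← hχ, smul_smul, inv_mul_cancel₀ hdet, one_smul]
  · push_neg at hall
    obtain ⟨w1, hw1, hne1⟩ := hall
    apply false_of_monomial D
    intro g
    have e0 := hrel g w0 hw0
    have e1 := hrel g w1 hw1
    constructor
    · have : (D.ρ g) 0 0 * (D.ρ g) 1 0 * (w0 0 1 * w1 1 0 - w1 0 1 * w0 1 0) = 0 := by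
        linear_combination w0 1 0 * e1 - w1 1 0 * e0
      exact (mul_eq_zero.1 this).resolve_right hne1
    · have : (D.ρ g) 0 1 * (D.ρ g) 1 1 * (w0 0 1 * w1 1 0 - w1 0 1 * w0 1 0) = 0 := by
        linear_combination w0 0 1 * e1 - w1 0 1 * e0
      exact (mul_eq_zero.1 this).resolve_right hne1

end Fermat.Agent.S56.Sel
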