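/-
S56 / SEL-CORE (architect helper56), node SC-20: CASE A
STUB: statements are frozen; the owner of the task replaces every `sorry` (helper lemmas welcome,
prefix their names with `CaseA.`).
-/
import Fermat.Agent.S56.Sel.Core.CaseA3
import Fermat.Agent.S56.Sel.Core.Basic

set_option autoImplicit false

namespace Fermat.Agent.S56.Sel

open Matrix

variable {k G : Type} [Field k] [Group G]

theorem Coc.caseA {D : Core k G} (c : Coc D) (h2 : (2 : k) ≠ 0) {s0 : G} (hs0 : s0 ∈ D.G')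
    {α β : k} (hαβ : α ≠ β) (hd : D.ρ s0 = !![α, 0; 0, β])
    (h : ∀ s ∈ D.G', D.IsReg s → c.tau s = 0) : ∀ κ ∈ D.G', D.ρ κ = 1 → c.b κ = 0 := by
  intro κ₀ hκ₀ hρκ₀
  by_contra hne
  obtain ⟨w, ⟨κ, hκ, hρκ, rfl⟩, hw⟩ := exists_diag_ne_zero D h2
    {w | ∃ κ ∈ D.G', D.ρ κ = 1 ∧ w = c.b κ}
    (by
      rintro w ⟨κ, -, -, rfl⟩
      exact c.tr κ)
    (by
      rintro g w ⟨κ, hκ, hρκ, rfl⟩
      refine ⟨g * κ * g⁻¹, D.normal.conj_mem κ hκ g, ?_, (c.b_conj_of_ker g hρκ).symm⟩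
      rw [map_mul, map_mul, hρκ, mul_one, D.ρ_mul_inv])
    ⟨c.b κ₀, ⟨κ₀, hκ₀, hρκ₀, rfl⟩, hne⟩
  have hdet : α * β = 1 := by
    have := D.det_one s0 hs0
    rw [hd, Matrix.det_fin_two_of] at this
    linear_combination this
  have htrace : (D.ρ s0).trace = α + β := by
    rw [hd, Matrix.trace_fin_two_of]
  have hreg : D.IsReg s0 := by
    intro h4
    rw [htrace] at h4
    have h5 : (α - β) ^ 2 = 0 := by linear_combination h4 - 4 * hdet
    exact hαβ (sub_eq_zero.1 ((pow_eq_zero_iff two_ne_zero).1 h5))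
  have hρ : D.ρ (s0 * κ) = D.ρ s0 := by rw [map_mul, hρκ, mul_one]
  have hreg' : D.IsReg (s0 * κ) := by
    unfold Core.IsReg
    rw [hρ]
    exact hreg
  have h1 := h s0 hs0 hreg
  have h2' := h (s0 * κ) (D.G'.mul_mem hs0 hκ) hreg'
  rw [c.tau_mul hs0 κ, hρκ, mul_one, mul_one] at h2'
  have h3 : (c.b s0 * D.ρ s0).trace = 0 := h1
  rw [h3, zero_add, hd] at h2'
  have h4 : (c.b κ) 0 0 + (c.b κ) 1 1 = 0 := by
    have := c.tr κ
    rwa [Matrix.trace_fin_two] at this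
  have h5 : (α - β) * (c.b κ) 0 0 = 0 := by
    rw [Matrix.trace_fin_two] at h2'
    simp only [Matrix.mul_apply, Fin.sum_univ_two, Matrix.of_apply, Matrix.cons_val_zero,
      Matrix.cons_val_one, Matrix.cons_val', Matrix.cons_val_fin_one] at h2'
    linear_combination h2' - β * h4
  rcases mul_eq_zero.1 h5 with h6 | h6
  · exact hαβ (sub_eq_zero.1 h6)
  · exact hw h6

end Fermat.Agent.S56.Sel
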