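/-
S56 / SEL-CORE (architect helper56), node SC-21: CASE B: b depends only on ρ; (4a) p = 3
(owner helper120)
-/
import Fermat.Agent.S56.Sel.Core.Basic
import Fermat.Agent.S56.Sel.Core.Nil

set_option autoImplicit false

namespace Fermat.Agent.S56.Sel

open Matrix

variable {k G : Type} [Field k] [Group G]

variable {D : Core k G} (c : Coc D)

theorem Coc.b_eq_of_ρ_eq (hB : ∀ κ ∈ D.G', D.ρ κ = 1 → c.b κ = 0) {s t : G} (hs : s ∈ D.G')
    (ht : t ∈ D.G') (h : D.ρ s = D.ρ t) : c.b s = c.b t := by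
  have hκ : c.b (s⁻¹ * t) = 0 := by
    refine hB _ (D.G'.mul_mem (D.G'.inv_mem hs) ht) ?_
    rw [map_mul, ← h, D.ρ_inv_mul]
  have h1 : c.b t = c.b (s * (s⁻¹ * t)) := by rw [mul_inv_cancel_left]
  rw [h1, c.coc, hκ, mul_zero, zero_mul, smul_zero, add_zero]

/-- The expansion of `Z + u Z u⁻¹ + u² Z u⁻²` for `u = 1 + n`, `n² = 0`. -/
theorem CaseB0.expand {R : Type} [Ring R] (n Z : R) (hn : n * n = 0) :
    Z + (1 + n) * (Z + (1 + n) * Z * (1 - n)) * (1 - n)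
      = n * Z * n + 3 • (Z + n * Z - Z * n - 2 • (n * Z * n)) := by
  have hn' : ∀ X : R, n * (n * X) = 0 := fun X => by rw [← mul_assoc, hn, zero_mul]
  simp only [mul_add, add_mul, mul_sub, sub_mul, mul_one, one_mul, mul_assoc, hn, hn', mul_zero,
    add_zero, sub_zero]
  abel

/-- (4a) -/
theorem Coc.tau_un_three [CharP k 3] (hB : ∀ κ ∈ D.G', D.ρ κ = 1 → c.b κ = 0) {x : G}
    (hx : D.IsUn x) : c.tau x = 0 := by
  obtain ⟨hxG, hnil, hne⟩ := hx
  set n : M2 k := D.ρ x - 1 with hn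
  have hu : D.ρ x = 1 + n := by rw [hn]; abel
  have hnn : n * n = 0 := hnil.sq
  have hu' : D.ρ x⁻¹ = 1 - n := by
    have h1 : D.ρ x * (1 - n) = 1 := by
      rw [hu, add_mul, one_mul, mul_sub, mul_one, hnn]
      abel
    calc D.ρ x⁻¹ = D.ρ x⁻¹ * (D.ρ x * (1 - n)) := by rw [h1, mul_one]
      _ = 1 - n := by rw [← mul_assoc, D.ρ_inv_mul, one_mul]
  have hdet : (D.ρ x).det = 1 := D.det_one x hxG
  -- `b (x ^ 3) = 0`
  have hx3 : c.b (x * (x * x)) = 0 := by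
    refine hB _ (D.G'.mul_mem hxG (D.G'.mul_mem hxG hxG)) ?_
    have h1 : D.ρ (x * (x * x)) = D.ρ x ^ 3 := by
      rw [map_mul, map_mul, pow_succ, pow_two, mul_assoc]
    rw [h1, pow_of_isNil hnil 3]
    have : ((3 : ℕ) : k) = 0 := CharP.cast_eq_zero k 3
    rw [this, zero_smul, add_zero]
  rw [c.coc, c.coc, hdet, one_smul, one_smul, hu, hu', CaseB0.expand n (c.b x) hnn] at hx3
  have h3' : ∀ X : M2 k, 3 • X = 0 := fun X => by
    have : (3 : ℕ) • X = ((3 : ℕ) : k) • X := (Nat.cast_smul_eq_nsmul k 3 X).symm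
    rw [this, CharP.cast_eq_zero k 3, zero_smul]
  rw [h3', add_zero, hnil.mul_mul] at hx3
  have htr : (c.b x * n).trace = 0 := by
    rcases smul_eq_zero.1 hx3 with h | h
    · exact h
    · exact absurd (sub_eq_zero.1 h) hne
  unfold Coc.tau
  rw [hu, mul_add, mul_one, Matrix.trace_add, c.tr, htr, add_zero]

end Fermat.Agent.S56.Sel
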