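/-
S56 / SEL-CORE (architect helper56), node SC-5: (F2), (F3)
-/
import Fermat.Agent.S56.Sel.Core.Basic
import Fermat.Agent.S56.Sel.Core.Nil

set_option autoImplicit false

namespace Fermat.Agent.S56.Sel

open Matrix

variable {k G : Type} [Field k] [Group G]

variable {D : Core k G} (c : Coc D)

theorem Pow.tau_one : c.tau 1 = 0 := by
  rw [Coc.tau, c.b_one, zero_mul, Matrix.trace_zero]

theorem Pow.trace_pow {u : M2 k} (h : IsNil (u - 1)) (m : ℕ) : (u ^ m).trace = 2 := by
  rw [pow_of_isNil h m, Matrix.trace_add, Matrix.trace_smul, h.tr, smul_zero, add_zero,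
    Matrix.trace_one]
  simp

/-- (F2) -/
theorem Coc.tau_pow {x : G} (hx : x ∈ D.G') (hu : IsNil (D.ρ x - 1)) (m : ℕ) :
    c.tau (x ^ m) = (m : k) ^ 2 * c.tau x := by
  induction m using Nat.twoStepInduction with
  | zero => simp [Pow.tau_one]
  | one => simp
  | more m ih0 ih1 =>
    have h := c.tau_mul_add (D.G'.pow_mem hx (m + 1)) hx
    have e1 : x ^ (m + 1) * x = x ^ (m + 2) := (pow_succ x (m + 1)).symm
    have e2 : x ^ (m + 1) * x⁻¹ = x ^ m := by rw [pow_succ, mul_inv_cancel_right]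
    have e3 : (D.ρ (x ^ (m + 1))).trace = 2 := by rw [map_pow]; exact Pow.trace_pow hu _
    have e4 : (D.ρ x).trace = 2 := by
      have := Pow.trace_pow hu 1
      rwa [pow_one] at this
    rw [e1, e2, e3, e4, ih0, ih1] at h
    push_cast at h ⊢
    linear_combination h

/-- (F3) -/
theorem Coc.tau_sq {s : G} (hs : s ∈ D.G') : c.tau (s ^ 2) = 2 * (D.ρ s).trace * c.tau s := by
  have h := c.tau_mul_add hs hs
  rw [mul_inv_cancel, Pow.tau_one, add_zero, ← sq] at h
  rw [h]
  ring

end Fermat.Agent.S56.Sel
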