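/-
S56 / SEL-CORE (architect helper56), node SC-3: the prime field
STUB: statements are frozen; the owner of the task replaces every `sorry` (helper lemmas welcome,
prefix their names with `Prime.`).
-/
import Fermat.Agent.S56.Sel.Core.Defs

set_option autoImplicit false

namespace Fermat.Agent.S56.Sel

open Matrix

variable {k G : Type} [Field k] [Group G]

theorem InPrime.neg (p : ℕ) [Fact p.Prime] [CharP k p] {a : k} (h : InPrime a) : InPrime (-a) := by
  obtain ⟨m, rfl⟩ := h
  refine ⟨(p - 1) * m, ?_⟩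
  have hp : 1 ≤ p := (Fact.out : p.Prime).one_lt.le
  rw [Nat.cast_mul, Nat.cast_sub hp, CharP.cast_eq_zero k p, Nat.cast_one]
  ring

theorem InPrime.mul {a b : k} (h : InPrime a) (h' : InPrime b) : InPrime (a * b) := by
  obtain ⟨m, rfl⟩ := h
  obtain ⟨n, rfl⟩ := h'
  exact ⟨m * n, (Nat.cast_mul m n).symm⟩

theorem InPrime.inv (p : ℕ) [Fact p.Prime] [CharP k p] {a : k} (h : InPrime a) : InPrime a⁻¹ := by
  obtain ⟨m, rfl⟩ := h
  by_cases hm : (m : k) = 0
  · exact ⟨0, by rw [hm, _root_.inv_zero, Nat.cast_zero]⟩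
  · have hpm : ¬ p ∣ m := fun hd => hm ((CharP.cast_eq_zero_iff k p m).2 hd)
    have hcop : Nat.Coprime m p := ((Fact.out : p.Prime).coprime_iff_not_dvd.2 hpm).symm
    obtain ⟨j, -, hj⟩ := Nat.exists_mul_mod_eq_one_of_coprime hcop (Fact.out : p.Prime).one_lt
    refine ⟨j, ?_⟩
    have h1 : ((m * j : ℕ) : k) = 1 := by
      conv_lhs => rw [← Nat.mod_add_div (m * j) p]
      rw [hj, Nat.cast_add, Nat.cast_mul, CharP.cast_eq_zero k p, zero_mul, add_zero, Nat.cast_one]
    rw [Nat.cast_mul] at h1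
    exact inv_eq_of_mul_eq_one_right h1

end Fermat.Agent.S56.Sel
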