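/-
S56 / SEL-CORE (architect helper56), node SC-22: CASE B: (4b)
STUB: statements are frozen; the owner of the task replaces every `sorry` (helper lemmas welcome,
prefix their names with `CaseB1.`).
-/
import Fermat.Agent.S56.Sel.Core.Pow
import Fermat.Agent.S56.Sel.Core.Prime

set_option autoImplicit false

namespace Fermat.Agent.S56.Sel

open Matrix

variable {k G : Type} [Field k] [Group G]

variable {D : Core k G} (c : Coc D)

theorem CaseB1.two_ne_zero (p : ℕ) [CharP k p] (hp2 : p ≠ 2) [Fact p.Prime] : (2 : k) ≠ 0 := by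
  intro h0
  have h1 : ((2 : ℕ) : k) = 0 := by exact_mod_cast h0
  rw [CharP.cast_eq_zero_iff k p] at h1
  exact hp2 ((Nat.prime_dvd_prime_iff_eq Fact.out Nat.prime_two).mp h1)

theorem CaseB1.three_ne_zero (p : ℕ) [CharP k p] (hp3 : p ≠ 3) [Fact p.Prime] : (3 : k) ≠ 0 := by
  intro h0
  have h1 : ((3 : ℕ) : k) = 0 := by exact_mod_cast h0
  rw [CharP.cast_eq_zero_iff k p] at h1
  exact hp3 ((Nat.prime_dvd_prime_iff_eq Fact.out Nat.prime_three).mp h1)

theorem CaseB1.trace_eq_two {u : M2 k} (h : IsNil (u - 1)) : u.trace = 2 := by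
  have h1 := h.tr
  rw [Matrix.trace_sub, Matrix.trace_one, Fintype.card_fin] at h1
  push_cast at h1
  linear_combination h1

theorem Coc.tau_un_of_not_inPrime (p : ℕ) [Fact p.Prime] [CharP k p] (hp2 : p ≠ 2) (hp3 : p ≠ 3)
    (h : ∀ s ∈ D.G', D.IsReg s → c.tau s = 0) {x y : G} (hx : D.IsUn x) (hy : D.IsUn y)
    (hl : ¬ InPrime ((D.ρ x - 1) * (D.ρ y - 1)).trace) : c.tau x = 0 := by
  obtain ⟨hxG, hxn, -⟩ := hx
  obtain ⟨hyG, hyn, -⟩ := hy
  set l : k := ((D.ρ x - 1) * (D.ρ y - 1)).trace with hldef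
  have h2 : (2 : k) ≠ 0 := CaseB1.two_ne_zero p hp2
  have h3 : (3 : k) ≠ 0 := CaseB1.three_ne_zero p hp3
  -- the excluded values of `l`
  have hnat : ∀ m : ℕ, l ≠ (m : k) := fun m hm => hl ⟨m, hm⟩
  have hneg : ∀ m : ℕ, l ≠ -(m : k) := fun m hm => hl (by
    rw [hm]
    exact InPrime.neg p ⟨m, rfl⟩)
  have l0 : l ≠ 0 := by simpa using hnat 0
  have l2 : l ≠ 2 := by simpa using hnat 2
  have l4 : l ≠ 4 := by simpa using hnat 4
  have l2' : l ≠ -2 := by simpa using hneg 2
  have l4' : l ≠ -4 := by simpa using hneg 4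
  -- traces
  have htry : (D.ρ y).trace = 2 := CaseB1.trace_eq_two hyn
  have htrx : ∀ m : ℕ, (D.ρ (x ^ m)).trace = 2 := by
    intro m
    have h0 : IsNil ((1 : M2 k) - 1) := by
      rw [sub_self]
      exact ⟨by simp, by simp⟩
    have := trace_pow_mul hxn h0 m
    rw [mul_one, sub_self, mul_zero, Matrix.trace_zero, mul_zero, add_zero] at this
    rw [map_pow]
    exact this
  have htr1 : ∀ m : ℕ, (D.ρ (x ^ m * y)).trace = 2 + (m : k) * l := by
    intro m
    rw [map_mul, map_pow]
    exact trace_pow_mul hxn hyn m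
  have htr2 : ∀ m : ℕ, (D.ρ (x ^ m * y⁻¹)).trace = 2 - (m : k) * l := by
    intro m
    rw [map_mul, map_pow]
    exact trace_pow_mul_inv hxn hyn (D.ρ_mul_inv y) m
  -- the key relation
  have key : ∀ m : ℕ, (m : k) * l ≠ 0 → (m : k) * l ≠ 4 → (m : k) * l ≠ -4 →
      2 * c.tau y + (m : k) ^ 2 * c.tau x * 2 = 0 := by
    intro m h0 h4 h4'
    have hxm : x ^ m ∈ D.G' := D.G'.pow_mem hxG m
    have r1 : D.IsReg (x ^ m * y) := by
      unfold Core.IsReg
      rw [htr1]
      intro hc
      have : (m : k) * l * ((m : k) * l + 4) = 0 := by linear_combination hc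
      rcases mul_eq_zero.mp this with h' | h'
      · exact h0 h'
      · exact h4' (by linear_combination h')
    have r2 : D.IsReg (x ^ m * y⁻¹) := by
      unfold Core.IsReg
      rw [htr2]
      intro hc
      have : (m : k) * l * ((m : k) * l - 4) = 0 := by linear_combination hc
      rcases mul_eq_zero.mp this with h' | h'
      · exact h0 h'
      · exact h4 (by linear_combination h')
    have t1 := h _ (D.G'.mul_mem hxm hyG) r1
    have t2 := h _ (D.G'.mul_mem hxm (D.G'.inv_mem hyG)) r2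
    have t3 := c.tau_mul_add hxm hyG
    rw [t1, t2, htrx, htry, c.tau_pow hxG hxn] at t3
    linear_combination -t3
  have k1 := key 1 (by simpa using l0) (by simpa using l4) (by simpa using l4')
  have k2 := key 2 (by
      push_cast
      exact mul_ne_zero h2 l0) (by
      push_cast
      intro hc
      exact l2 (mul_left_cancel₀ h2 (by linear_combination hc))) (by
      push_cast
      intro hc
      exact l2' (mul_left_cancel₀ h2 (by linear_combination hc)))
  push_cast at k1 k2
  have h6 : (2 : k) * 3 * c.tau x = 0 := by linear_combination k2 - k1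
  rcases mul_eq_zero.mp h6 with h' | h'
  · exact absurd h' (mul_ne_zero h2 h3)
  · exact h'

end Fermat.Agent.S56.Sel
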