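/-
S56 / SEL-CORE (architect helper56), node SC-23: CASE B: moving the line of g0 x g0⁻¹ back to the line of x
STUB: statements are frozen; the owner of the task replaces every `sorry` (helper lemmas welcome,
prefix their names with `CaseB2.`).
-/
import Fermat.Agent.S56.Sel.Core.Nil
import Fermat.Agent.S56.Sel.Core.Prime

set_option autoImplicit false

namespace Fermat.Agent.S56.Sel

open Matrix

variable {k G : Type} [Field k] [Group G]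

/-- `ρ (g x g⁻¹) - 1 = ρ g (ρ x - 1) ρ g⁻¹` -/
theorem CaseB2.conj_sub_one (D : Core k G) (g x : G) :
    D.ρ (g * x * g⁻¹) - 1 = D.ρ g * (D.ρ x - 1) * D.ρ g⁻¹ := by
  rw [map_mul, map_mul, mul_sub, sub_mul, mul_one, D.ρ_mul_inv]

/-- conjugates of unipotent elements are unipotent -/
theorem CaseB2.isUn_conj (D : Core k G) {x : G} (hx : D.IsUn x) (g : G) :
    D.IsUn (g * x * g⁻¹) := by
  refine ⟨D.normal.conj_mem x hx.1 g, ?_, ?_⟩
  · rw [CaseB2.conj_sub_one]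
    exact hx.2.1.conj (D.ρ_mul_inv g) (D.ρ_inv_mul g)
  · intro h
    apply hx.2.2
    have h1 : D.ρ g⁻¹ * D.ρ (g * x * g⁻¹) * D.ρ g = D.ρ x := by
      rw [← map_mul, ← map_mul]
      congr 1
      group
    rw [← h1, h, mul_one, D.ρ_inv_mul]

/-- the matrix computation -/
theorem CaseB2.key {n n' : M2 k} (hn : IsNil n) (hn' : IsNil n') (j : k)
    (hj : j * (n * n').trace = -1) :
    n * ((1 + j • n') * (1 + n)) * n' = 0 := by
  have h1 : n * ((1 + j • n') * (1 + n)) * n'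
      = n * n' + (n * n) * n' + j • (n * (n' * n')) + j • ((n * n') * (n * n')) := by
    simp only [mul_add, add_mul, mul_one, one_mul, smul_mul_assoc, mul_smul_comm, mul_assoc]
    abel
  rw [h1, hn.sq, hn'.sq, hn.mul_sq, zero_mul, mul_zero, smul_zero, add_zero, add_zero, smul_smul,
    hj, neg_smul, one_smul, add_neg_cancel]

theorem Core.exists_conj_same_line (D : Core k G) (p : ℕ) [Fact p.Prime] [CharP k p] {x : G}
    (hx : D.IsUn x) (hl : ∀ y, D.IsUn y → InPrime ((D.ρ x - 1) * (D.ρ y - 1)).trace) :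
    ∃ (g : G) (μ : k), (D.ρ g).det = (D.ρ D.g0).det ∧ D.ρ (g * x * g⁻¹) - 1 = μ • (D.ρ x - 1) := by
  have hn : IsNil (D.ρ x - 1) := hx.2.1
  have hn0 : D.ρ x - 1 ≠ 0 := sub_ne_zero.mpr hx.2.2
  have hx' : D.IsUn (D.g0 * x * D.g0⁻¹) := CaseB2.isUn_conj D hx D.g0
  have hn' : IsNil (D.ρ (D.g0 * x * D.g0⁻¹) - 1) := hx'.2.1
  have hlam := hl _ hx'
  by_cases h0 : ((D.ρ x - 1) * (D.ρ (D.g0 * x * D.g0⁻¹) - 1)).trace = 0
  · obtain ⟨μ, hμ⟩ := hn.eq_smul_of_mul_eq_zero hn0 hn' (hn.mul_eq_zero_of_trace hn' h0)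
    exact ⟨D.g0, μ, rfl, hμ⟩
  · obtain ⟨j, hj⟩ := (hlam.inv p).neg p
    have hj' : (j : k) * ((D.ρ x - 1) * (D.ρ (D.g0 * x * D.g0⁻¹) - 1)).trace = -1 := by
      rw [← hj, neg_mul, inv_mul_cancel₀ h0]
    have hh : (D.g0 * x * D.g0⁻¹) ^ j * x ∈ D.G' :=
      D.G'.mul_mem (D.G'.pow_mem hx'.1 j) hx.1
    have hρh : D.ρ ((D.g0 * x * D.g0⁻¹) ^ j * x)
        = (1 + (j : k) • (D.ρ (D.g0 * x * D.g0⁻¹) - 1)) * (1 + (D.ρ x - 1)) := by
      rw [map_mul, map_pow, pow_of_isNil hn' j, add_sub_cancel]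
    have hconj : (D.g0 * x * D.g0⁻¹) ^ j * x * D.g0 * x * ((D.g0 * x * D.g0⁻¹) ^ j * x * D.g0)⁻¹
        = ((D.g0 * x * D.g0⁻¹) ^ j * x) * (D.g0 * x * D.g0⁻¹) * ((D.g0 * x * D.g0⁻¹) ^ j * x)⁻¹ := by
      generalize (D.g0 * x * D.g0⁻¹) ^ j * x = h
      group
    have hn'' : IsNil (D.ρ (((D.g0 * x * D.g0⁻¹) ^ j * x) * (D.g0 * x * D.g0⁻¹) *
        ((D.g0 * x * D.g0⁻¹) ^ j * x)⁻¹) - 1) := (CaseB2.isUn_conj D hx' _).2.1
    have hzero : (D.ρ x - 1) * (D.ρ (((D.g0 * x * D.g0⁻¹) ^ j * x) * (D.g0 * x * D.g0⁻¹) *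
        ((D.g0 * x * D.g0⁻¹) ^ j * x)⁻¹) - 1) = 0 := by
      rw [CaseB2.conj_sub_one, ← mul_assoc, ← mul_assoc, hρh, CaseB2.key hn hn' _ hj', zero_mul]
    obtain ⟨μ, hμ⟩ := hn.eq_smul_of_mul_eq_zero hn0 hn'' hzero
    refine ⟨(D.g0 * x * D.g0⁻¹) ^ j * x * D.g0, μ, ?_, ?_⟩
    · rw [map_mul, Matrix.det_mul, D.det_one _ hh, one_mul]
    · rw [hconj, hμ]

end Fermat.Agent.S56.Sel
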