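/-
S56 / SEL-CORE (architect helper56), node SC-6: stable lines of G' : translates, generator, scalar case
-/
import Fermat.Agent.S56.Sel.Core.Mat

set_option autoImplicit false

namespace Fermat.Agent.S56.Sel

open Matrix

variable {k G : Type} [Field k] [Group G]

variable (D : Core k G)

/-- translates of stable lines are stable -/
theorem stableLine_smul {v : Fin 2 → k} (h : StableLine D.ρ D.G' v) (g : G) :
    StableLine D.ρ D.G' ((D.ρ g).mulVec v) := by
  obtain ⟨hv, hs⟩ := h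
  refine ⟨fun h0 => hv ?_, fun s hsG => ?_⟩
  · have h1 : (D.ρ g⁻¹).mulVec ((D.ρ g).mulVec v) = v := by
      rw [mulVec_mulVec, D.ρ_inv_mul, one_mulVec]
    rw [← h1, h0, mulVec_zero]
  · have hconj : g⁻¹ * s * g ∈ D.G' := by
      have := D.normal.conj_mem s hsG g⁻¹
      rwa [inv_inv] at this
    obtain ⟨c, hc⟩ := hs _ hconj
    refine ⟨c, ?_⟩
    have hg : s * g = g * (g⁻¹ * s * g) := by group
    rw [← mulVec_smul, ← hc, mulVec_mulVec, mulVec_mulVec, ← map_mul, ← map_mul, hg]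

/-- the elements of `G` which stabilise the line spanned by `u` -/
def IrrA.stab (u : Fin 2 → k) (hu : u ≠ 0) : Subgroup G where
  carrier := {g | ∃ δ : k, (D.ρ g).mulVec u = δ • u}
  one_mem' := ⟨1, by rw [map_one, one_mulVec, one_smul]⟩
  mul_mem' := by
    rintro a b ⟨α, ha⟩ ⟨β, hb⟩
    exact ⟨β * α, by rw [map_mul, ← mulVec_mulVec, hb, mulVec_smul, ha, smul_smul]⟩
  inv_mem' := by
    rintro a ⟨α, ha⟩
    have h1 : u = α • (D.ρ a⁻¹).mulVec u := by
      rw [← mulVec_smul, ← ha, mulVec_mulVec, D.ρ_inv_mul, one_mulVec]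
    have hα : α ≠ 0 := by
      rintro rfl
      rw [zero_smul] at h1
      exact hu h1
    refine ⟨α⁻¹, ?_⟩
    conv_rhs => rw [h1]
    rw [smul_smul, inv_mul_cancel₀ hα, one_smul]

/-- (Fact B) a `G'`-stable line which is stable under a generator of `G / G'` would be `G`-stable -/
theorem not_stable_of_gen {c : G} (hc : ∀ g : G, ∃ i : ℤ, c ^ i * g ∈ D.G') {u : Fin 2 → k}
    (h : StableLine D.ρ D.G' u) : ¬ ∃ γ : k, (D.ρ c).mulVec u = γ • u := by
  intro hγ
  refine D.irr ⊤ (Or.inl rfl) u ⟨h.1, fun g _ => ?_⟩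
  obtain ⟨i, hi⟩ := hc g
  have h1 : c ^ i ∈ IrrA.stab D u h.1 := Subgroup.zpow_mem _ hγ i
  have h2 : c ^ i * g ∈ IrrA.stab D u h.1 := h.2 _ hi
  have h3 : g ∈ IrrA.stab D u h.1 := by
    have := Subgroup.mul_mem _ (Subgroup.inv_mem _ h1) h2
    rwa [inv_mul_cancel_left] at this
  exact h3

/-- `ρ G'` does not consist of scalar matrices -/
theorem not_scalar : ¬ ∀ s ∈ D.G', ∃ a : k, D.ρ s = a • (1 : M2 k) := by
  intro hsc
  obtain ⟨c, hc⟩ := D.cyc
  obtain ⟨α, β, ht, hd⟩ := D.split c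
  obtain ⟨u, hu, hcu⟩ := exists_eigenvector (D.ρ c) α β ht hd
  refine not_stable_of_gen D hc ⟨hu, fun s hs => ?_⟩ ⟨α, hcu⟩
  obtain ⟨a, ha⟩ := hsc s hs
  exact ⟨a, by rw [ha, smul_mulVec, one_mulVec]⟩

end Fermat.Agent.S56.Sel
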