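/-
S56 / SEL-CORE (architect helper56), node SC-7: the generator cannot exchange two stable lines
STUB: statements are frozen; the owner of the task replaces every `sorry` (helper lemmas welcome,
prefix their names with `IrrB.`).
-/
import Fermat.Agent.S56.Sel.Core.IrrA

set_option autoImplicit false

namespace Fermat.Agent.S56.Sel

open Matrix

variable {k G : Type} [Field k] [Group G]

variable (D : Core k G)

/-- `ρ g` maps the line `k x` into the line `k y`. -/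
def IrrB.Ln (g : G) (x y : Fin 2 → k) : Prop := ∃ γ : k, (D.ρ g).mulVec x = γ • y

theorem IrrB.Ln.one (x : Fin 2 → k) : IrrB.Ln D 1 x x :=
  ⟨1, by rw [map_one, Matrix.one_mulVec, one_smul]⟩

theorem IrrB.Ln.mul {g h : G} {x y z : Fin 2 → k} (hg : IrrB.Ln D g y z) (hh : IrrB.Ln D h x y) :
    IrrB.Ln D (g * h) x z := by
  obtain ⟨γ, hγ⟩ := hg
  obtain ⟨δ, hδ⟩ := hh
  refine ⟨δ * γ, ?_⟩
  rw [map_mul, ← Matrix.mulVec_mulVec, hδ, Matrix.mulVec_smul, hγ, smul_smul]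

theorem IrrB.Ln.inv {g : G} {x y : Fin 2 → k} (hx : x ≠ 0) (hg : IrrB.Ln D g x y) :
    IrrB.Ln D g⁻¹ y x := by
  obtain ⟨γ, hγ⟩ := hg
  have h1 : (D.ρ g⁻¹).mulVec ((D.ρ g).mulVec x) = x := by
    rw [Matrix.mulVec_mulVec, D.ρ_inv_mul, Matrix.one_mulVec]
  rw [hγ, Matrix.mulVec_smul] at h1
  have hγ0 : γ ≠ 0 := by
    rintro rfl
    rw [zero_smul] at h1
    exact hx h1.symm
  refine ⟨γ⁻¹, ?_⟩
  rw [← h1, smul_smul, inv_mul_cancel₀ hγ0, one_smul]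

/-- the elements which preserve or exchange the two lines `k v`, `k w`. -/
def IrrB.K {v w : Fin 2 → k} (hv : v ≠ 0) (hw : w ≠ 0) : Subgroup G where
  carrier := {g | (IrrB.Ln D g v v ∧ IrrB.Ln D g w w) ∨ (IrrB.Ln D g v w ∧ IrrB.Ln D g w v)}
  one_mem' := Or.inl ⟨IrrB.Ln.one D v, IrrB.Ln.one D w⟩
  mul_mem' := by
    rintro g h (⟨g1, g2⟩ | ⟨g1, g2⟩) (⟨h1, h2⟩ | ⟨h1, h2⟩)
    · exact Or.inl ⟨g1.mul D h1, g2.mul D h2⟩
    · exact Or.inr ⟨g2.mul D h1, g1.mul D h2⟩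
    · exact Or.inr ⟨g1.mul D h1, g2.mul D h2⟩
    · exact Or.inl ⟨g2.mul D h1, g1.mul D h2⟩
  inv_mem' := by
    rintro g (⟨g1, g2⟩ | ⟨g1, g2⟩)
    · exact Or.inl ⟨g1.inv D hv, g2.inv D hw⟩
    · exact Or.inr ⟨g2.inv D hw, g1.inv D hv⟩

/-- the stabiliser of the line `k v`. -/
def IrrB.H {v : Fin 2 → k} (hv : v ≠ 0) : Subgroup G where
  carrier := {g | IrrB.Ln D g v v}
  one_mem' := IrrB.Ln.one D v
  mul_mem' := fun hg hh => IrrB.Ln.mul D hg hh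
  inv_mem' := fun hg => IrrB.Ln.inv D hv hg

theorem not_swap {c : G} (hc : ∀ g : G, ∃ i : ℤ, c ^ i * g ∈ D.G') {v w : Fin 2 → k}
    (hv : StableLine D.ρ D.G' v) (hw : (D.ρ c).mulVec v = w) (hvw : ¬ ∃ γ : k, w = γ • v) :
    ¬ ∃ α : k, (D.ρ c).mulVec w = α • v := by
  rintro ⟨α, hα⟩
  have hv0 : v ≠ 0 := hv.1
  have hw0 : w ≠ 0 := fun h => hvw ⟨0, by rw [h, zero_smul]⟩
  have hwst : StableLine D.ρ D.G' w := hw ▸ stableLine_smul D hv c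
  -- every element preserves or exchanges the two lines
  have hcK : c ∈ IrrB.K D hv0 hw0 := Or.inr ⟨⟨1, by rw [hw, one_smul]⟩, ⟨α, hα⟩⟩
  have hK : ∀ g : G, g ∈ IrrB.K D hv0 hw0 := by
    intro g
    obtain ⟨i, hi⟩ := hc g
    have h1 : c ^ i * g ∈ IrrB.K D hv0 hw0 := Or.inl ⟨hv.2 _ hi, hwst.2 _ hi⟩
    have h2 := (IrrB.K D hv0 hw0).mul_mem
      ((IrrB.K D hv0 hw0).inv_mem ((IrrB.K D hv0 hw0).zpow_mem hcK i)) h1
    rwa [inv_mul_cancel_left] at h2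
  -- the stabiliser of `k v` has index two
  have hidx : (IrrB.H D hv0).index = 2 := by
    rw [Subgroup.index_eq_two_iff_exists_notMem_and]
    refine ⟨c, ?_, fun b => ?_⟩
    · rintro ⟨γ, hγ⟩
      exact hvw ⟨γ, by rw [← hw, hγ]⟩
    · rcases hK b with ⟨b1, -⟩ | ⟨-, b2⟩
      · exact Or.inr b1
      · exact Or.inl (IrrB.Ln.mul D b2 ⟨1, by rw [hw, one_smul]⟩)
  exact D.irr (IrrB.H D hv0) (Or.inr hidx) v ⟨hv0, fun g hg => hg⟩

end Fermat.Agent.S56.Sel
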