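/-
S56 / SEL-CORE (architect helper56), node SC-8: (0) : the restriction of ρ to G' has no stable line
(proof helper70; helper lemmas are prefixed with `Irr.`).
-/
import Fermat.Agent.S56.Sel.Core.IrrA
import Fermat.Agent.S56.Sel.Core.IrrB

set_option autoImplicit false

namespace Fermat.Agent.S56.Sel

open Matrix

variable {k G : Type} [Field k] [Group G]

/-- two non proportional vectors have nonzero determinant -/
theorem Irr.det_ne_zero {v w : Fin 2 → k} (hv : v ≠ 0) (hvw : ¬ ∃ γ : k, w = γ • v) :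
    v 0 * w 1 - v 1 * w 0 ≠ 0 := by
  intro hd
  apply hvw
  by_cases h0 : v 0 = 0
  · have h1 : v 1 ≠ 0 := by
      intro h1
      apply hv
      funext i
      fin_cases i
      · exact h0
      · exact h1
    have hw0 : w 0 = 0 := by
      rw [h0, zero_mul, zero_sub, neg_eq_zero] at hd
      exact (mul_eq_zero.1 hd).resolve_left h1
    refine ⟨w 1 / v 1, ?_⟩
    funext i
    fin_cases i
    · show w 0 = w 1 / v 1 * v 0
      rw [hw0, h0, mul_zero]
    · show w 1 = w 1 / v 1 * v 1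
      rw [div_mul_cancel₀ _ h1]
  · refine ⟨w 0 / v 0, ?_⟩
    funext i
    fin_cases i
    · show w 0 = w 0 / v 0 * v 0
      rw [div_mul_cancel₀ _ h0]
    · show w 1 = w 0 / v 0 * v 1
      field_simp
      linear_combination hd

/-- two non proportional vectors span the plane -/
theorem Irr.exists_comb {v w : Fin 2 → k} (hv : v ≠ 0) (hvw : ¬ ∃ γ : k, w = γ • v)
    (u : Fin 2 → k) : ∃ α β : k, u = α • v + β • w := by
  have hd := Irr.det_ne_zero hv hvw
  refine ⟨(u 0 * w 1 - u 1 * w 0) / (v 0 * w 1 - v 1 * w 0),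
    (v 0 * u 1 - v 1 * u 0) / (v 0 * w 1 - v 1 * w 0), ?_⟩
  funext i
  fin_cases i
  · show u 0 = (u 0 * w 1 - u 1 * w 0) / (v 0 * w 1 - v 1 * w 0) * v 0 +
      (v 0 * u 1 - v 1 * u 0) / (v 0 * w 1 - v 1 * w 0) * w 0
    rw [div_mul_eq_mul_div, div_mul_eq_mul_div, ← add_div, eq_div_iff hd]
    ring
  · show u 1 = (u 0 * w 1 - u 1 * w 0) / (v 0 * w 1 - v 1 * w 0) * v 1 +
      (v 0 * u 1 - v 1 * u 0) / (v 0 * w 1 - v 1 * w 0) * w 1
    rw [div_mul_eq_mul_div, div_mul_eq_mul_div, ← add_div, eq_div_iff hd]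
    ring

/-- two non proportional vectors are linearly independent -/
theorem Irr.eq_zero_of_comb {v w : Fin 2 → k} (hv : v ≠ 0) (hvw : ¬ ∃ γ : k, w = γ • v)
    {x y : k} (h : x • v + y • w = 0) : x = 0 ∧ y = 0 := by
  have hy : y = 0 := by
    by_contra hy
    apply hvw
    refine ⟨-x / y, ?_⟩
    have h1 : y • w = (-x) • v := by
      rw [neg_smul]
      exact eq_neg_of_add_eq_zero_right h
    calc w = y⁻¹ • (y • w) := by rw [smul_smul, inv_mul_cancel₀ hy, one_smul]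
      _ = (-x / y) • v := by rw [h1, smul_smul, div_eq_inv_mul]
  refine ⟨?_, hy⟩
  rw [hy, zero_smul, add_zero] at h
  exact (smul_eq_zero.1 h).resolve_right hv

variable (D : Core k G)

theorem Core.irr' (v : Fin 2 → k) : ¬ StableLine D.ρ D.G' v := by
  intro hv
  obtain ⟨c, hc⟩ := D.cyc
  by_cases hvw : ∃ γ : k, (D.ρ c).mulVec v = γ • v
  · exact not_stable_of_gen D hc hv hvw
  have hw : StableLine D.ρ D.G' ((D.ρ c).mulVec v) := stableLine_smul D hv c
  have hz : StableLine D.ρ D.G' ((D.ρ c).mulVec ((D.ρ c).mulVec v)) := stableLine_smul D hw c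
  obtain ⟨w, hwdef⟩ : ∃ w, (D.ρ c).mulVec v = w := ⟨_, rfl⟩
  rw [hwdef] at hvw hw hz
  obtain ⟨α, β, hαβ⟩ := Irr.exists_comb hv.1 hvw ((D.ρ c).mulVec w)
  by_cases hα : α = 0
  · exact not_stable_of_gen D hc hw ⟨β, by rw [hαβ, hα, zero_smul, zero_add]⟩
  by_cases hβ : β = 0
  · exact not_swap D hc hv hwdef hvw ⟨α, by rw [hαβ, hβ, zero_smul, add_zero]⟩
  apply not_scalar D
  intro s hs
  obtain ⟨a, ha⟩ := hv.2 s hs
  obtain ⟨b, hb⟩ := hw.2 s hs
  obtain ⟨e, he⟩ := hz.2 s hs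
  rw [hαβ, mulVec_add, mulVec_smul, mulVec_smul, ha, hb] at he
  have h0 : (α * (a - e)) • v + (β * (b - e)) • w = 0 := by
    have h1 : α • a • v + β • b • w - e • (α • v + β • w) = 0 := sub_eq_zero.2 he
    rw [← h1]
    simp only [smul_add, smul_smul, mul_sub, sub_smul]
    rw [mul_comm e α, mul_comm e β]
    abel
  obtain ⟨h1, h2⟩ := Irr.eq_zero_of_comb hv.1 hvw h0
  have hae : a = e := sub_eq_zero.1 ((mul_eq_zero.1 h1).resolve_left hα)
  have hbe : b = e := sub_eq_zero.1 ((mul_eq_zero.1 h2).resolve_left hβ)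
  refine ⟨a, ?_⟩
  rw [ext_iff_mulVec]
  intro u
  obtain ⟨x, y, rfl⟩ := Irr.exists_comb hv.1 hvw u
  rw [mulVec_add, mulVec_smul, mulVec_smul, ha, hb, hbe, ← hae, smul_mulVec, one_mulVec, smul_add,
    smul_comm x a v, smul_comm y a w]

end Fermat.Agent.S56.Sel
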