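/-
S56 / SEL-CORE (architect helper56), node SC-9: regular elements   (proofs: helper266)
Statements are frozen.
-/
import Fermat.Agent.S56.Sel.Core.Irr
import Fermat.Agent.S56.Sel.Core.Nil

set_option autoImplicit false

namespace Fermat.Agent.S56.Sel

open Matrix

variable {k G : Type} [Field k] [Group G]

variable (D : Core k G)

/-- conjugates of unipotent elements -/
theorem Reg.isUn_conj {x : G} (hx : D.IsUn x) {s : G} (hs : s ∈ D.G') :
    D.IsUn (s * x * s⁻¹) ∧ D.ρ (s * x * s⁻¹) - 1 = D.ρ s * (D.ρ x - 1) * D.ρ s⁻¹ := by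
  have e : D.ρ (s * x * s⁻¹) - 1 = D.ρ s * (D.ρ x - 1) * D.ρ s⁻¹ := by
    rw [map_mul, map_mul, mul_sub, sub_mul, mul_one, D.ρ_mul_inv]
  refine ⟨⟨D.G'.mul_mem (D.G'.mul_mem hs hx.1) (D.G'.inv_mem hs), ?_, ?_⟩, e⟩
  · rw [e]
    exact hx.2.1.conj (D.ρ_mul_inv s) (D.ρ_inv_mul s)
  · intro h1
    apply hx.2.2
    have h2 : D.ρ s * (D.ρ x - 1) * D.ρ s⁻¹ = 0 := by rw [← e, h1, sub_self]
    have h3 : D.ρ s⁻¹ * (D.ρ s * (D.ρ x - 1) * D.ρ s⁻¹) * D.ρ s = D.ρ x - 1 := by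
      calc D.ρ s⁻¹ * (D.ρ s * (D.ρ x - 1) * D.ρ s⁻¹) * D.ρ s
          = (D.ρ s⁻¹ * D.ρ s) * (D.ρ x - 1) * (D.ρ s⁻¹ * D.ρ s) := by noncomm_ring
        _ = D.ρ x - 1 := by rw [D.ρ_inv_mul, one_mul, mul_one]
    rw [h2, mul_zero, zero_mul] at h3
    exact (sub_eq_zero.mp h3.symm)

/-- a nontrivial unipotent element has a conjugate with another fixed line -/
theorem Core.exists_conj_trace_ne {x : G} (hx : D.IsUn x) :
    ∃ y, D.IsUn y ∧ ((D.ρ x - 1) * (D.ρ y - 1)).trace ≠ 0 := by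
  by_contra hcon
  push Not at hcon
  have hn := hx.2.1
  have hn0 : D.ρ x - 1 ≠ 0 := fun h => hx.2.2 (sub_eq_zero.mp h)
  have key : ∀ s ∈ D.G', (D.ρ x - 1) * D.ρ s * (D.ρ x - 1) = 0 := by
    intro s hs
    obtain ⟨hy, e⟩ := Reg.isUn_conj D hx hs
    have h1 := hcon _ hy
    have h2 := hn.mul_eq_zero_of_trace hy.2.1 h1
    rw [e] at h2
    have h3 : (D.ρ x - 1) * (D.ρ s * (D.ρ x - 1) * D.ρ s⁻¹) * D.ρ s =
        (D.ρ x - 1) * D.ρ s * (D.ρ x - 1) := by
      calc (D.ρ x - 1) * (D.ρ s * (D.ρ x - 1) * D.ρ s⁻¹) * D.ρ s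
          = (D.ρ x - 1) * D.ρ s * (D.ρ x - 1) * (D.ρ s⁻¹ * D.ρ s) := by noncomm_ring
        _ = (D.ρ x - 1) * D.ρ s * (D.ρ x - 1) := by rw [D.ρ_inv_mul, mul_one]
    rw [← h3, h2, zero_mul]
  obtain ⟨v, hv0, -, ⟨w, hw⟩, hker⟩ := hn.exists_vec hn0
  refine D.irr' v ⟨hv0, fun s hs => ?_⟩
  apply hker
  rw [← hw, Matrix.mulVec_mulVec, Matrix.mulVec_mulVec, key s hs, Matrix.zero_mulVec]

/-- (1) -/
theorem Core.exists_reg (h2 : (2 : k) ≠ 0) : ∃ s ∈ D.G', D.IsReg s := by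
  by_contra hcon
  push Not at hcon
  have htr : ∀ s ∈ D.G', (D.ρ s).trace ^ 2 = 4 := fun s hs => not_not.mp (hcon s hs)
  have hun : ∃ x, D.IsUn x := by
    have hns := not_scalar D
    push Not at hns
    obtain ⟨s, hs, hsc⟩ := hns
    have h4 : ((D.ρ s).trace - 2) * ((D.ρ s).trace + 2) = 0 := by linear_combination htr s hs
    rcases mul_eq_zero.mp h4 with h5 | h5
    · refine ⟨s, hs, (isNil_sub_one_iff _).mpr ⟨by linear_combination h5, D.det_one s hs⟩, ?_⟩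
      intro h1
      exact hsc 1 (by rw [h1, one_smul])
    · have hss : s * s ∈ D.G' := D.G'.mul_mem hs hs
      have h6 : (D.ρ s).trace = -2 := by linear_combination h5
      have hρ : D.ρ (s * s) = (-2 : k) • D.ρ s - 1 := by
        rw [map_mul, cayley, D.det_one s hs, one_smul, h6]
      refine ⟨s * s, hss, (isNil_sub_one_iff _).mpr ⟨?_, D.det_one _ hss⟩, ?_⟩
      · rw [hρ, Matrix.trace_sub, Matrix.trace_smul, h6, Matrix.trace_one, smul_eq_mul]
        simp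
        norm_num
      · intro h1
        rw [hρ] at h1
        have h7 : (2 : k) • (D.ρ s + 1) = 0 := by
          have h9 : (2 : k) • (D.ρ s + 1) = -(((-2 : k) • D.ρ s - 1) - 1) := by module
          rw [h9, h1, sub_self, neg_zero]
        rcases smul_eq_zero.mp h7 with h8 | h8
        · exact h2 h8
        · apply hsc (-1)
          rw [neg_smul, one_smul]
          exact eq_neg_of_add_eq_zero_left h8
  obtain ⟨x, hx⟩ := hun
  obtain ⟨y, hy, hlam⟩ := D.exists_conj_trace_ne hx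
  have e1 := htr (x ^ 1 * y) (D.G'.mul_mem (D.G'.pow_mem hx.1 1) hy.1)
  have e2 := htr (x ^ 2 * y) (D.G'.mul_mem (D.G'.pow_mem hx.1 2) hy.1)
  rw [map_mul, map_pow, trace_pow_mul hx.2.1 hy.2.1] at e1 e2
  set lam := ((D.ρ x - 1) * (D.ρ y - 1)).trace with hl
  push_cast at e1 e2
  have h3 : lam * (lam + 4) = 0 := by linear_combination e1
  have h4 : lam = -4 := by
    rcases mul_eq_zero.mp h3 with h | h
    · exact absurd h hlam
    · linear_combination h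
  rw [h4] at e2
  have h5 : (2 : k) ^ 5 = 0 := by linear_combination e2
  exact h2 (pow_eq_zero_iff (by norm_num) |>.mp h5)

end Fermat.Agent.S56.Sel
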