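/-
S56 / SEL-CORE (architect helper56), node SC-24: CASE B: (4c)
Proof: helper292 (task SC-24).
-/
import Fermat.Agent.S56.Sel.Core.CaseB0
import Fermat.Agent.S56.Sel.Core.CaseB1
import Fermat.Agent.S56.Sel.Core.CaseB2
import Fermat.Agent.S56.Sel.Core.Reg

set_option autoImplicit false

namespace Fermat.Agent.S56.Sel

open Matrix

variable {k G : Type} [Field k] [Group G]

variable {D : Core k G} (c : Coc D)

theorem Coc.tau_un_of_inPrime (p : ℕ) [Fact p.Prime] [CharP k p] (hp2 : p ≠ 2) (hp3 : p ≠ 3)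
    (hB : ∀ κ ∈ D.G', D.ρ κ = 1 → c.b κ = 0) (h : ∀ s ∈ D.G', D.IsReg s → c.tau s = 0) {x : G}
    (hx : D.IsUn x) (hl : ∀ y, D.IsUn y → InPrime ((D.ρ x - 1) * (D.ρ y - 1)).trace) :
    c.tau x = 0 := by
  obtain ⟨g, μ, hdet, hconj⟩ := D.exists_conj_same_line p hx hl
  have hd0 : (D.ρ D.g0).det ≠ 0 := by
    have := D.g0_ns 0
    intro h0
    apply this
    rw [h0, Nat.cast_zero]
    exact zero_pow two_ne_zero
  -- the conjugate `x''`
  have hmem : g * x * g⁻¹ ∈ D.G' := D.normal.conj_mem x hx.1 g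
  have hne : D.ρ (g * x * g⁻¹) ≠ 1 := by
    intro h1
    apply hx.2.2
    rw [map_mul, map_mul] at h1
    calc D.ρ x = D.ρ g⁻¹ * (D.ρ g * D.ρ x * D.ρ g⁻¹) * D.ρ g := by
          rw [mul_assoc (D.ρ g), ← mul_assoc (D.ρ g⁻¹), D.ρ_inv_mul, one_mul, mul_assoc,
            D.ρ_inv_mul, mul_one]
      _ = 1 := by rw [h1, mul_one, D.ρ_inv_mul]
  have hnil : IsNil (D.ρ (g * x * g⁻¹) - 1) := by
    rw [hconj]
    refine ⟨?_, ?_⟩
    · rw [Matrix.trace_smul, hx.2.1.tr, smul_zero]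
    · rw [Matrix.det_smul, hx.2.1.det, mul_zero]
  have hx'' : D.IsUn (g * x * g⁻¹) := ⟨hmem, hnil, hne⟩
  have htau : c.tau (g * x * g⁻¹) = (D.ρ D.g0).det * c.tau x := by
    rw [c.tau_conj g hx.1, hdet]
  obtain ⟨y₀, hy₀, hlam⟩ := D.exists_conj_trace_ne hx
  have htr : ((D.ρ (g * x * g⁻¹) - 1) * (D.ρ y₀ - 1)).trace =
      μ * ((D.ρ x - 1) * (D.ρ y₀ - 1)).trace := by
    rw [hconj, Matrix.smul_mul, Matrix.trace_smul, smul_eq_mul]
  by_cases hP : InPrime ((D.ρ (g * x * g⁻¹) - 1) * (D.ρ y₀ - 1)).trace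
  · -- `μ` lies in the prime field
    have hμ : InPrime μ := by
      have h1 := hP.mul ((hl y₀ hy₀).inv p)
      rwa [htr, mul_assoc, mul_inv_cancel₀ hlam, mul_one] at h1
    obtain ⟨m, rfl⟩ := hμ
    have hρ : D.ρ (g * x * g⁻¹) = D.ρ (x ^ m) := by
      rw [map_pow, pow_of_isNil hx.2.1 m, ← hconj]
      abel
    have hb : c.b (g * x * g⁻¹) = c.b (x ^ m) :=
      c.b_eq_of_ρ_eq hB hmem (D.G'.pow_mem hx.1 m) hρ
    have h2 : c.tau (g * x * g⁻¹) = (m : k) ^ 2 * c.tau x := by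
      rw [← c.tau_pow hx.1 hx.2.1 m, Coc.tau, Coc.tau, hb, hρ]
    have h3 : ((m : k) ^ 2 - (D.ρ D.g0).det) * c.tau x = 0 := by
      rw [sub_mul, ← h2, ← htau, sub_self]
    exact (mul_eq_zero.1 h3).resolve_left (sub_ne_zero.2 (D.g0_ns m))
  · have h1 := c.tau_un_of_not_inPrime p hp2 hp3 h hx'' hy₀ hP
    rw [htau] at h1
    exact (mul_eq_zero.1 h1).resolve_left hd0

end Fermat.Agent.S56.Sel
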