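/-
S56 / SEL-CORE (architect helper56), node SC-25: CASE B: assembly
Statements are frozen (proved by helper153, task 2659).
-/
import Fermat.Agent.S56.Sel.Core.CaseB3

set_option autoImplicit false

namespace Fermat.Agent.S56.Sel

open Matrix

variable {k G : Type} [Field k] [Group G]

variable {D : Core k G} (c : Coc D)

/-- the case of trace `2` -/
theorem CaseB.tr_two (p : ℕ) [Fact p.Prime] [CharP k p] (hp2 : p ≠ 2)
    (hB : ∀ κ ∈ D.G', D.ρ κ = 1 → c.b κ = 0) (h : ∀ s ∈ D.G', D.IsReg s → c.tau s = 0)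
    {s : G} (hs : s ∈ D.G') (ht : (D.ρ s).trace = 2) : c.tau s = 0 := by
  have hnil : IsNil (D.ρ s - 1) := (isNil_sub_one_iff _).2 ⟨ht, D.det_one s hs⟩
  by_cases h1 : D.ρ s = 1
  · exact c.tau_of_scalar (a := 1) (by rw [h1, one_smul])
  · have hun : D.IsUn s := ⟨hs, hnil, h1⟩
    by_cases hp3 : p = 3
    · subst hp3
      exact c.tau_un_three hB hun
    · by_cases hl : ∀ y, D.IsUn y → InPrime ((D.ρ s - 1) * (D.ρ y - 1)).trace
      · exact c.tau_un_of_inPrime p hp2 hp3 hB h hun hl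
      · push Not at hl
        obtain ⟨y, hy, hl⟩ := hl
        exact c.tau_un_of_not_inPrime p hp2 hp3 h hun hy hl

theorem CaseB.two_ne_zero (p : ℕ) [hp : Fact p.Prime] [CharP k p] (hp2 : p ≠ 2) : (2 : k) ≠ 0 := by
  intro h0
  have h1 : ((2 : ℕ) : k) = 0 := by exact_mod_cast h0
  rw [CharP.cast_eq_zero_iff k p] at h1
  exact hp2 ((Nat.prime_dvd_prime_iff_eq hp.out Nat.prime_two).1 h1)

theorem Coc.caseB (p : ℕ) [Fact p.Prime] [CharP k p] (hp2 : p ≠ 2)
    (hB : ∀ κ ∈ D.G', D.ρ κ = 1 → c.b κ = 0) (h : ∀ s ∈ D.G', D.IsReg s → c.tau s = 0) :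
    ∀ s ∈ D.G', c.tau s = 0 := by
  intro s hs
  by_cases hreg : D.IsReg s
  · exact h s hs hreg
  · have h4 : (D.ρ s).trace ^ 2 = 4 := not_not.1 hreg
    have h5 : (D.ρ s).trace = 2 ∨ (D.ρ s).trace = -2 := by
      have h6 : ((D.ρ s).trace - 2) * ((D.ρ s).trace + 2) = 0 := by linear_combination h4
      rcases mul_eq_zero.1 h6 with h7 | h7
      · left
        linear_combination h7
      · right
        linear_combination h7
    rcases h5 with h5 | h5
    · exact CaseB.tr_two c p hp2 hB h hs h5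
    · have hs2 : s ^ 2 ∈ D.G' := D.G'.pow_mem hs 2
      have ht2 : (D.ρ (s ^ 2)).trace = 2 := by
        rw [map_pow, pow_two, cayley, D.det_one s hs, Matrix.trace_sub, Matrix.trace_smul,
          Matrix.trace_smul, h5, Matrix.trace_one]
        simp
        norm_num
      have h6 := CaseB.tr_two c p hp2 hB h hs2 ht2
      rw [c.tau_sq hs, h5] at h6
      have h2 := CaseB.two_ne_zero (k := k) p hp2
      rcases mul_eq_zero.1 h6 with h7 | h7
      · exfalso
        rcases mul_eq_zero.1 h7 with h8 | h8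
        · exact h2 h8
        · exact h2 (neg_eq_zero.1 h8)
      · exact h7

end Fermat.Agent.S56.Sel
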