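/-
S56 / SEL-CORE (architect helper56), node SC-10: change of basis
STUB: statements are frozen; the owner of the task replaces every `sorry` (helper lemmas welcome,
prefix their names with `Conj.`).
-/
import Fermat.Agent.S56.Sel.Core.Mat

set_option autoImplicit false

namespace Fermat.Agent.S56.Sel

open Matrix

variable {k G : Type} [Field k] [Group G]

theorem Conj.mul_conj {P P' : M2 k} (h' : P' * P = 1) (A B : M2 k) :
    P * A * P' * (P * B * P') = P * (A * B) * P' := by
  calc P * A * P' * (P * B * P') = P * A * (P' * P) * B * P' := by simp only [mul_assoc]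
    _ = P * (A * B) * P' := by rw [h', mul_one]; simp only [mul_assoc]

theorem Conj.stableLine {ρ : G →* M2 k} {P P' : M2 k} (h : P * P' = 1) (h' : P' * P = 1)
    {H : Subgroup G} {v : Fin 2 → k} (hv0 : v ≠ 0)
    (hv : ∀ g ∈ H, ∃ c : k, (P * ρ g * P').mulVec v = c • v) : StableLine ρ H (P'.mulVec v) := by
  refine ⟨?_, ?_⟩
  · intro h0
    apply hv0
    have : P.mulVec (P'.mulVec v) = v := by rw [Matrix.mulVec_mulVec, h, Matrix.one_mulVec]
    rw [← this, h0, Matrix.mulVec_zero]
  · intro g hg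
    obtain ⟨c, hc⟩ := hv g hg
    refine ⟨c, ?_⟩
    calc (ρ g).mulVec (P'.mulVec v) = P'.mulVec ((P * ρ g * P').mulVec v) := by
          rw [Matrix.mulVec_mulVec, Matrix.mulVec_mulVec, ← mul_assoc, ← mul_assoc, h', one_mul]
      _ = c • P'.mulVec v := by rw [hc, Matrix.mulVec_smul]

/-- conjugate data -/
def Core.conj (D : Core k G) (P P' : M2 k) (h : P * P' = 1) (h' : P' * P = 1) : Core k G where
  ρ :=
    { toFun := fun g => P * D.ρ g * P'
      map_one' := by rw [map_one, mul_one, h]
      map_mul' := fun a b => by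
        rw [map_mul]
        calc P * (D.ρ a * D.ρ b) * P' = P * D.ρ a * 1 * D.ρ b * P' := by
              simp only [mul_one, mul_assoc]
          _ = P * D.ρ a * P' * (P * D.ρ b * P') := by rw [← h']; simp only [mul_assoc] }
  G' := D.G'
  normal := D.normal
  det_one := fun s hs => by
    show (P * D.ρ s * P').det = 1
    rw [det_conj h, D.det_one s hs]
  cyc := D.cyc
  irr := fun H hH v hv => D.irr H hH (P'.mulVec v) (Conj.stableLine h h' hv.1 hv.2)
  split := fun g => by
    obtain ⟨α, β, h1, h2⟩ := D.split g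
    refine ⟨α, β, ?_, ?_⟩
    · show (P * D.ρ g * P').trace = _
      rw [trace_conj h', h1]
    · show (P * D.ρ g * P').det = _
      rw [det_conj h, h2]
  g0 := D.g0
  g0_ns := fun m => by
    show (m : k) ^ 2 ≠ (P * D.ρ D.g0 * P').det
    rw [det_conj h]
    exact D.g0_ns m

theorem Conj.ρ_apply (D : Core k G) (P P' : M2 k) (h : P * P' = 1) (h' : P' * P = 1) (g : G) :
    (D.conj P P' h h').ρ g = P * D.ρ g * P' := rfl

/-- conjugate cocycle -/
def Coc.conj {D : Core k G} (c : Coc D) (P P' : M2 k) (h : P * P' = 1) (h' : P' * P = 1) :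
    Coc (D.conj P P' h h') where
  b := fun g => P * c.b g * P'
  tr := fun g => by rw [trace_conj h', c.tr g]
  coc := fun g g₂ => by
    rw [Conj.ρ_apply, Conj.ρ_apply, det_conj h, Conj.mul_conj h', Conj.mul_conj h', c.coc,
      mul_add, add_mul, Matrix.mul_smul, Matrix.smul_mul]

theorem Conj.b_apply {D : Core k G} (c : Coc D) (P P' : M2 k) (h : P * P' = 1) (h' : P' * P = 1)
    (g : G) : (c.conj P P' h h').b g = P * c.b g * P' := rfl

theorem Coc.tau_conjBasis {D : Core k G} (c : Coc D) (P P' : M2 k) (h : P * P' = 1)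
    (h' : P' * P = 1) (s : G) : (c.conj P P' h h').tau s = c.tau s := by
  rw [Coc.tau, Coc.tau, Conj.b_apply, Conj.ρ_apply, Conj.mul_conj h', trace_conj h']

theorem Core.isReg_conj {D : Core k G} (P P' : M2 k) (h : P * P' = 1) (h' : P' * P = 1) (s : G) :
    (D.conj P P' h h').IsReg s ↔ D.IsReg s := by
  rw [Core.IsReg, Core.IsReg, Conj.ρ_apply, trace_conj h']

theorem Coc.isCob_of_conj {D : Core k G} (c : Coc D) (P P' : M2 k) (h : P * P' = 1)
    (h' : P' * P = 1) (hc : (c.conj P P' h h').IsCob) : c.IsCob := by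
  obtain ⟨X', hX', hb⟩ := hc
  refine ⟨P' * X' * P, by rw [trace_conj h, hX'], fun g => ?_⟩
  have h1 := hb g
  rw [Conj.b_apply, Conj.ρ_apply, Conj.ρ_apply, det_conj h] at h1
  have h2 : c.b g = P' * (P * c.b g * P') * P := by
    calc c.b g = (P' * P) * c.b g * (P' * P) := by rw [h', one_mul, mul_one]
      _ = P' * (P * c.b g * P') * P := by simp only [mul_assoc]
  have h3 : P' * (P * D.ρ g * P' * X' * (P * D.ρ g⁻¹ * P')) * P =
      D.ρ g * (P' * X' * P) * D.ρ g⁻¹ := by
    calc P' * (P * D.ρ g * P' * X' * (P * D.ρ g⁻¹ * P')) * P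
        = (P' * P) * D.ρ g * (P' * X' * P) * D.ρ g⁻¹ * (P' * P) := by simp only [mul_assoc]
      _ = D.ρ g * (P' * X' * P) * D.ρ g⁻¹ := by rw [h', one_mul, mul_one]
  rw [h2, h1, mul_sub, sub_mul, Matrix.mul_smul, Matrix.smul_mul, h3]

end Fermat.Agent.S56.Sel
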