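/-
S56 / SEL-CORE (architect helper56), node SC-12: diagonal situation: off-diagonal entries, commutant, extension from G' to G
(proofs: helper294)
-/
import Fermat.Agent.S56.Sel.Core.Irr
import Fermat.Agent.S56.Sel.Core.Basic

set_option autoImplicit false

namespace Fermat.Agent.S56.Sel

open Matrix

variable {k G : Type} [Field k] [Group G]

theorem exists_upper (D : Core k G) : ∃ h ∈ D.G', (D.ρ h) 0 1 ≠ 0 := by
  by_contra hcon
  have h0 : ∀ h ∈ D.G', (D.ρ h) 0 1 = 0 := by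
    intro h hh
    by_contra hne
    exact hcon ⟨h, hh, hne⟩
  refine D.irr' ![0, 1] ⟨?_, fun g hg => ⟨(D.ρ g) 1 1, ?_⟩⟩
  · intro h
    have := congrFun h 1
    simp at this
  · ext i
    fin_cases i
    · simp [Matrix.mulVec, dotProduct, Fin.sum_univ_two, h0 g hg]
    · simp [Matrix.mulVec, dotProduct, Fin.sum_univ_two]

theorem exists_lower (D : Core k G) : ∃ h ∈ D.G', (D.ρ h) 1 0 ≠ 0 := by
  by_contra hcon
  have h0 : ∀ h ∈ D.G', (D.ρ h) 1 0 = 0 := by
    intro h hh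
    by_contra hne
    exact hcon ⟨h, hh, hne⟩
  refine D.irr' ![1, 0] ⟨?_, fun g hg => ⟨(D.ρ g) 0 0, ?_⟩⟩
  · intro h
    have := congrFun h 0
    simp at this
  · ext i
    fin_cases i
    · simp [Matrix.mulVec, dotProduct, Fin.sum_univ_two]
    · simp [Matrix.mulVec, dotProduct, Fin.sum_univ_two, h0 g hg]

variable {D : Core k G} (c : Coc D) {s0 : G} {α β : k}

/-- the commutant -/
theorem eq_zero_of_commute (h2 : (2 : k) ≠ 0) (hs0 : s0 ∈ D.G') (hαβ : α ≠ β)
    (hd : D.ρ s0 = !![α, 0; 0, β]) (Z : M2 k) (hZ : Z.trace = 0)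
    (h : ∀ s ∈ D.G', D.ρ s * Z = Z * D.ρ s) : Z = 0 := by
  have hsub : α - β ≠ 0 := sub_ne_zero.2 hαβ
  have e := h s0 hs0
  rw [hd] at e
  have e01 := congrFun (congrFun e 0) 1
  have e10 := congrFun (congrFun e 1) 0
  simp only [Matrix.mul_apply, Fin.sum_univ_two, Matrix.of_apply, Matrix.cons_val_zero,
    Matrix.cons_val_one, Matrix.cons_val', Matrix.cons_val_fin_one] at e01 e10
  have z01 : Z 0 1 = 0 := by
    have : (α - β) * Z 0 1 = 0 := by linear_combination e01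
    exact (mul_eq_zero.1 this).resolve_left hsub
  have z10 : Z 1 0 = 0 := by
    have : (α - β) * Z 1 0 = 0 := by linear_combination -e10
    exact (mul_eq_zero.1 this).resolve_left hsub
  rw [Matrix.trace_fin_two] at hZ
  obtain ⟨t, ht, ht01⟩ := exists_upper D
  have f := congrFun (congrFun (h t ht) 0) 1
  simp only [Matrix.mul_apply, Fin.sum_univ_two] at f
  have z00 : Z 0 0 = 0 := by
    have : 2 * (D.ρ t) 0 1 * Z 0 0 = 0 := by
      rw [z01] at f
      linear_combination (D.ρ t) 0 1 * hZ - f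
    exact (mul_eq_zero.1 this).resolve_left (mul_ne_zero h2 ht01)
  have z11 : Z 1 1 = 0 := by
    rw [z00, zero_add] at hZ
    exact hZ
  ext i j
  fin_cases i <;> fin_cases j
  · exact z00
  · exact z01
  · exact z10
  · exact z11

/-- a cocycle vanishing on `G'` vanishes -/
theorem Coc.eq_zero_of_eq_zero_on (h2 : (2 : k) ≠ 0) (hs0 : s0 ∈ D.G') (hαβ : α ≠ β)
    (hd : D.ρ s0 = !![α, 0; 0, β]) (h : ∀ s ∈ D.G', c.b s = 0) (g : G) : c.b g = 0 := by
  refine eq_zero_of_commute h2 hs0 hαβ hd (c.b g) (c.tr g) fun s hs => ?_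
  have h1 : c.b (s * g) = D.ρ s * c.b g * D.ρ s⁻¹ := by
    rw [c.coc, h s hs, D.det_one s hs, one_smul, zero_add]
  have hmem : g⁻¹ * s * g ∈ D.G' := by
    have := D.normal.conj_mem s hs g⁻¹
    rwa [inv_inv] at this
  have h3 : c.b (s * g) = c.b g := by
    have e : s * g = g * (g⁻¹ * s * g) := by group
    rw [e, c.coc, h _ hmem, mul_zero, zero_mul, smul_zero, add_zero]
  rw [h3] at h1
  calc D.ρ s * c.b g = D.ρ s * c.b g * (D.ρ s⁻¹ * D.ρ s) := by rw [D.ρ_inv_mul, mul_one]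
    _ = D.ρ s * c.b g * D.ρ s⁻¹ * D.ρ s := by rw [mul_assoc, mul_assoc, mul_assoc]
    _ = c.b g * D.ρ s := by rw [← h1]

end Fermat.Agent.S56.Sel
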