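/-
S56 / SEL-CORE (architect helper56), node SC-11: subtracting a coboundary
STUB: statements are frozen; the owner of the task replaces every `sorry` (helper lemmas welcome,
prefix their names with `SubCob.`).
-/
import Fermat.Agent.S56.Sel.Core.Basic

set_option autoImplicit false

namespace Fermat.Agent.S56.Sel

open Matrix

variable {k G : Type} [Field k] [Group G]

variable {D : Core k G}

/-- `b - ∂X` -/
def Coc.subCob (c : Coc D) (X : M2 k) (hX : X.trace = 0) : Coc D where
  b := fun g => c.b g - ((D.ρ g).det • (D.ρ g * X * D.ρ g⁻¹) - X)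
  tr := fun g => by
    rw [trace_sub, trace_sub, trace_smul, trace_conj (D.ρ_inv_mul g), c.tr, hX]
    simp
  coc := fun g h => by
    rw [c.coc, map_mul, _root_.mul_inv_rev, map_mul, det_mul]
    simp only [Matrix.mul_sub, Matrix.sub_mul, Matrix.mul_smul, Matrix.smul_mul, smul_sub,
      smul_smul, Matrix.mul_assoc]
    abel

theorem Coc.tau_subCob (c : Coc D) (X : M2 k) (hX : X.trace = 0) {s : G} (hs : s ∈ D.G') :
    (c.subCob X hX).tau s = c.tau s := by
  show ((c.b s - ((D.ρ s).det • (D.ρ s * X * D.ρ s⁻¹) - X)) * D.ρ s).trace = (c.b s * D.ρ s).trace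
  rw [D.det_one s hs, one_smul, Matrix.sub_mul, trace_sub, trace_cob _ _ _ (D.ρ_inv_mul s),
    sub_zero]

theorem Coc.isCob_of_subCob (c : Coc D) (X : M2 k) (hX : X.trace = 0)
    (h : (c.subCob X hX).IsCob) : c.IsCob := by
  obtain ⟨Y, hY, hb⟩ := h
  refine ⟨X + Y, by rw [trace_add, hX, hY, add_zero], fun g => ?_⟩
  have h1 : c.b g - ((D.ρ g).det • (D.ρ g * X * D.ρ g⁻¹) - X) =
      (D.ρ g).det • (D.ρ g * Y * D.ρ g⁻¹) - Y := hb g
  rw [sub_eq_iff_eq_add] at h1
  rw [h1, Matrix.mul_add, Matrix.add_mul, smul_add]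
  abel

end Fermat.Agent.S56.Sel
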