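/-
S56 / SEL-CORE (architect helper56), node SC-13: diagonal situation: first normalisation, the diagonal of Z_t
(task 2646, helper288).
-/
import Fermat.Agent.S56.Sel.Core.SubCob

set_option autoImplicit false

namespace Fermat.Agent.S56.Sel

open Matrix

variable {k G : Type} [Field k] [Group G]

variable {D : Core k G} (c : Coc D) {s0 : G} {α β : k}

theorem DiagB.mul_eq_one (hs0 : s0 ∈ D.G') (hd : D.ρ s0 = !![α, 0; 0, β]) : α * β = 1 := by
  have h := D.det_one s0 hs0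
  rw [hd, Matrix.det_fin_two_of] at h
  simpa using h

theorem DiagB.rho_inv (hs0 : s0 ∈ D.G') (hd : D.ρ s0 = !![α, 0; 0, β]) :
    D.ρ s0⁻¹ = !![β, 0; 0, α] := by
  have hab := DiagB.mul_eq_one hs0 hd
  have h1 : (!![β, 0; 0, α] : M2 k) * D.ρ s0 = 1 := by
    rw [hd]
    ext i j
    fin_cases i <;> fin_cases j <;> simp [Matrix.mul_apply, Fin.sum_univ_two, mul_comm β α, hab]
  calc D.ρ s0⁻¹ = (!![β, 0; 0, α] * D.ρ s0) * D.ρ s0⁻¹ := by rw [h1, one_mul]
    _ = !![β, 0; 0, α] := by rw [mul_assoc, D.ρ_mul_inv, mul_one]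

/-- first normalisation -/
theorem Coc.exists_subCob_s0 (hs0 : s0 ∈ D.G') (hαβ : α ≠ β) (hd : D.ρ s0 = !![α, 0; 0, β])
    (h : c.tau s0 = 0) : ∃ (X : M2 k) (hX : X.trace = 0), (c.subCob X hX).b s0 = 0 := by
  have hab := DiagB.mul_eq_one hs0 hd
  have hinv := DiagB.rho_inv hs0 hd
  have hα0 : α ≠ 0 := by rintro rfl; simp at hab
  have hβ0 : β ≠ 0 := by rintro rfl; simp at hab
  have hα2 : α ^ 2 - 1 ≠ 0 := by
    intro h1
    apply hαβ
    have h2 : α * (α - β) = 0 := by linear_combination h1 - hab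
    rcases mul_eq_zero.1 h2 with h3 | h3
    · exact absurd h3 hα0
    · exact sub_eq_zero.1 h3
  have hβ2 : β ^ 2 - 1 ≠ 0 := by
    intro h1
    apply hαβ
    have h2 : β * (α - β) = 0 := by linear_combination hab - h1
    rcases mul_eq_zero.1 h2 with h3 | h3
    · exact absurd h3 hβ0
    · exact sub_eq_zero.1 h3
  have htr : (c.b s0) 0 0 + (c.b s0) 1 1 = 0 := by
    have := c.tr s0
    rwa [Matrix.trace_fin_two] at this
  have htau : α * (c.b s0) 0 0 + β * (c.b s0) 1 1 = 0 := by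
    have h1 := h
    rw [Coc.tau, hd, Matrix.trace_fin_two] at h1
    simp [Matrix.mul_apply, Fin.sum_univ_two] at h1
    linear_combination h1
  have h00 : (c.b s0) 0 0 = 0 := by
    have h2 : (α - β) * (c.b s0) 0 0 = 0 := by linear_combination htau - β * htr
    rcases mul_eq_zero.1 h2 with h3 | h3
    · exact absurd (sub_eq_zero.1 h3) hαβ
    · exact h3
  have h11 : (c.b s0) 1 1 = 0 := by rw [h00, zero_add] at htr; exact htr
  refine ⟨!![0, (c.b s0) 0 1 / (α ^ 2 - 1); (c.b s0) 1 0 / (β ^ 2 - 1), 0], by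
    simp [Matrix.trace_fin_two], ?_⟩
  show c.b s0 - ((D.ρ s0).det • (D.ρ s0 * _ * D.ρ s0⁻¹) - _) = 0
  rw [D.det_one s0 hs0, one_smul, hinv, hd]
  ext i j
  fin_cases i <;> fin_cases j
  · simp [Matrix.mul_apply, Fin.sum_univ_two, h00]
  · simp [Matrix.mul_apply, Fin.sum_univ_two]
    field_simp
    ring
  · simp [Matrix.mul_apply, Fin.sum_univ_two]
    field_simp
    ring
  · simp [Matrix.mul_apply, Fin.sum_univ_two, h11]

/-- the diagonal of `Z_t` vanishes -/
theorem Coc.Z_diag (hs0 : s0 ∈ D.G') (hαβ : α ≠ β) (hd : D.ρ s0 = !![α, 0; 0, β])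
    (h0 : c.b s0 = 0) (h : ∀ s ∈ D.G', c.tau s = 0) {t : G} (ht : t ∈ D.G') :
    (c.b t * D.ρ t) 0 0 = 0 ∧ (c.b t * D.ρ t) 1 1 = 0 := by
  have h1 : (c.b t * D.ρ t) 0 0 + (c.b t * D.ρ t) 1 1 = 0 := by
    have := h t ht
    rwa [Coc.tau, Matrix.trace_fin_two] at this
  have h2 : α * (c.b t * D.ρ t) 0 0 + β * (c.b t * D.ρ t) 1 1 = 0 := by
    have h3 := h (s0 * t) (D.G'.mul_mem hs0 ht)
    rw [c.tau_mul hs0 t, h0, zero_mul, zero_mul, Matrix.trace_zero, zero_add, hd,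
      Matrix.trace_fin_two] at h3
    generalize c.b t * D.ρ t = Z at h3 ⊢
    simp [Matrix.mul_apply, Fin.sum_univ_two] at h3
    linear_combination h3
  have h00 : (c.b t * D.ρ t) 0 0 = 0 := by
    have h4 : (α - β) * (c.b t * D.ρ t) 0 0 = 0 := by linear_combination h2 - β * h1
    rcases mul_eq_zero.1 h4 with h5 | h5
    · exact absurd (sub_eq_zero.1 h5) hαβ
    · exact h5
  exact ⟨h00, by rw [h00, zero_add] at h1; exact h1⟩

end Fermat.Agent.S56.Sel
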