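/-
S56 / SEL-CORE (architect helper56), node SC-14: diagonal situation: second normalisation
(proof by helper111).
-/
import Fermat.Agent.S56.Sel.Core.DiagB

set_option autoImplicit false

namespace Fermat.Agent.S56.Sel

open Matrix

variable {k G : Type} [Field k] [Group G]

variable {D : Core k G} (c : Coc D) {s0 : G} {α β : k}

omit [Group G] in
theorem DiagC.comm (A : M2 k) (x : k) :
    A * !![x, 0; 0, -x] - !![x, 0; 0, -x] * A = !![0, -(2 * x * A 0 1); 2 * x * A 1 0, 0] := by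
  conv_lhs => rw [Matrix.eta_fin_two A]
  rw [Matrix.mul_fin_two, Matrix.mul_fin_two]
  ext i j
  fin_cases i <;> fin_cases j <;> simp <;> ring

theorem Coc.exists_subCob_h (h2 : (2 : k) ≠ 0) (hs0 : s0 ∈ D.G') (hαβ : α ≠ β)
    (hd : D.ρ s0 = !![α, 0; 0, β]) (h0 : c.b s0 = 0) (h : ∀ s ∈ D.G', c.tau s = 0) {t : G}
    (ht : t ∈ D.G') (ht1 : (D.ρ t) 0 1 ≠ 0) :
    ∃ (X : M2 k) (hX : X.trace = 0), (c.subCob X hX).b s0 = 0 ∧ (c.subCob X hX).b t = 0 := by
  obtain ⟨hZ0, hZ1⟩ := c.Z_diag hs0 hαβ hd h0 h ht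
  obtain ⟨x, hx⟩ : ∃ x : k, (c.b t * D.ρ t) 0 1 + 2 * x * (D.ρ t) 0 1 = 0 := by
    refine ⟨-((c.b t * D.ρ t) 0 1) / (2 * (D.ρ t) 0 1), ?_⟩
    field_simp
    ring
  have hX : (!![x, 0; 0, -x] : M2 k).trace = 0 := by simp [Matrix.trace_fin_two]
  refine ⟨!![x, 0; 0, -x], hX, ?_, ?_⟩
  · -- `X` commutes with `ρ s0`
    change c.b s0 - ((D.ρ s0).det • (D.ρ s0 * !![x, 0; 0, -x] * D.ρ s0⁻¹) - !![x, 0; 0, -x]) = 0
    have hcomm : D.ρ s0 * !![x, 0; 0, -x] = !![x, 0; 0, -x] * D.ρ s0 := by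
      rw [hd]
      ext i j
      fin_cases i <;> fin_cases j <;> simp [Matrix.mul_apply, Fin.sum_univ_two, mul_comm]
    rw [h0, D.det_one s0 hs0, one_smul, hcomm, mul_assoc, D.ρ_mul_inv, mul_one, sub_self,
      sub_zero]
  · -- `Z' = b' t * ρ t`
    have hZ' : (c.subCob !![x, 0; 0, -x] hX).b t * D.ρ t =
        c.b t * D.ρ t - !![0, -(2 * x * (D.ρ t) 0 1); 2 * x * (D.ρ t) 1 0, 0] := by
      rw [← DiagC.comm]
      change (c.b t - ((D.ρ t).det • (D.ρ t * !![x, 0; 0, -x] * D.ρ t⁻¹) - !![x, 0; 0, -x])) *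
        D.ρ t = _
      rw [D.det_one t ht, one_smul, sub_mul, sub_mul, mul_assoc (D.ρ t * _), D.ρ_inv_mul,
        mul_one]
    have e00 : ((c.subCob !![x, 0; 0, -x] hX).b t * D.ρ t) 0 0 = 0 := by
      rw [hZ', Matrix.sub_apply, hZ0]
      simp
    have e11 : ((c.subCob !![x, 0; 0, -x] hX).b t * D.ρ t) 1 1 = 0 := by
      rw [hZ', Matrix.sub_apply, hZ1]
      simp
    have e01 : ((c.subCob !![x, 0; 0, -x] hX).b t * D.ρ t) 0 1 = 0 := by
      rw [hZ', Matrix.sub_apply]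
      simpa using hx
    have htau : (c.subCob !![x, 0; 0, -x] hX).tau (t * t) = 0 := by
      rw [c.tau_subCob _ hX (D.G'.mul_mem ht ht)]
      exact h _ (D.G'.mul_mem ht ht)
    rw [(c.subCob !![x, 0; 0, -x] hX).tau_mul ht t] at htau
    have e10 : ((c.subCob !![x, 0; 0, -x] hX).b t * D.ρ t) 1 0 = 0 := by
      generalize (c.subCob !![x, 0; 0, -x] hX).b t * D.ρ t = Z at e00 e11 e01 htau
      rw [Matrix.trace_fin_two, Matrix.trace_fin_two] at htau
      simp only [Matrix.mul_apply, Fin.sum_univ_two, e00, e11, e01] at htau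
      have h3 : 2 * (D.ρ t) 0 1 * Z 1 0 = 0 := by linear_combination htau
      exact (mul_eq_zero.mp h3).resolve_left (mul_ne_zero h2 ht1)
    have hZ0' : (c.subCob !![x, 0; 0, -x] hX).b t * D.ρ t = 0 := by
      ext i j
      fin_cases i <;> fin_cases j
      · exact e00
      · exact e01
      · exact e10
      · exact e11
    have := congrArg (· * D.ρ t⁻¹) hZ0'
    simpa only [mul_assoc, D.ρ_mul_inv, mul_one, zero_mul] using this

end Fermat.Agent.S56.Sel
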