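/-
S56 / SEL-CORE (architect helper56), node SC-15: diagonal situation: rigidity
-/
import Fermat.Agent.S56.Sel.Core.DiagA
import Fermat.Agent.S56.Sel.Core.DiagB

set_option autoImplicit false

namespace Fermat.Agent.S56.Sel

open Matrix

variable {k G : Type} [Field k] [Group G]

/-- trace of a product with an antidiagonal matrix -/
theorem DiagD.trace_mul_of_diag (Z A : M2 k) (h0 : Z 0 0 = 0) (h1 : Z 1 1 = 0) :
    (Z * A).trace = Z 0 1 * A 1 0 + Z 1 0 * A 0 1 := by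
  simp [Matrix.trace_fin_two, Matrix.mul_apply, Fin.sum_univ_two, h0, h1]

/-- trace of a product with an antidiagonal matrix, other side -/
theorem DiagD.trace_mul_of_diag' (Z A : M2 k) (h0 : Z 0 0 = 0) (h1 : Z 1 1 = 0) :
    (A * Z).trace = Z 0 1 * A 1 0 + Z 1 0 * A 0 1 := by
  rw [Matrix.trace_mul_comm, DiagD.trace_mul_of_diag Z A h0 h1]

variable {D : Core k G} (c : Coc D) {s0 : G} {α β : k}

theorem Coc.eq_zero_on (h2 : (2 : k) ≠ 0) (hs0 : s0 ∈ D.G') (hαβ : α ≠ β)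
    (hd : D.ρ s0 = !![α, 0; 0, β]) (h0 : c.b s0 = 0) (h : ∀ s ∈ D.G', c.tau s = 0) {t : G}
    (ht : t ∈ D.G') (ht1 : (D.ρ t) 0 1 ≠ 0) (hbt : c.b t = 0) : ∀ s ∈ D.G', c.b s = 0 := by
  have hdiag : ∀ s ∈ D.G', (c.b s * D.ρ s) 0 0 = 0 ∧ (c.b s * D.ρ s) 1 1 = 0 :=
    fun s hs => c.Z_diag hs0 hαβ hd h0 h hs
  -- the lower left entry vanishes
  have hz : ∀ s ∈ D.G', (c.b s * D.ρ s) 1 0 = 0 := by
    intro s hs
    obtain ⟨d0, d1⟩ := hdiag s hs
    have e1 : (c.b s * D.ρ s * D.ρ t).trace = 0 := by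
      have := c.tau_mul hs t
      rw [h _ (D.G'.mul_mem hs ht), hbt, zero_mul, mul_zero, Matrix.trace_zero, add_zero] at this
      exact this.symm
    have hbts : c.b (t * s0) = 0 := by
      rw [c.coc, hbt, h0, mul_zero, zero_mul, smul_zero, add_zero]
    have e2 : (c.b s * D.ρ s * D.ρ (t * s0)).trace = 0 := by
      have := c.tau_mul hs (t * s0)
      rw [h _ (D.G'.mul_mem hs (D.G'.mul_mem ht hs0)), hbts, zero_mul, mul_zero,
        Matrix.trace_zero, add_zero] at this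
      exact this.symm
    rw [DiagD.trace_mul_of_diag _ _ d0 d1] at e1 e2
    have f1 : (D.ρ (t * s0)) 1 0 = (D.ρ t) 1 0 * α := by
      rw [map_mul, hd]; simp [Matrix.mul_apply, Fin.sum_univ_two]
    have f2 : (D.ρ (t * s0)) 0 1 = (D.ρ t) 0 1 * β := by
      rw [map_mul, hd]; simp [Matrix.mul_apply, Fin.sum_univ_two]
    rw [f1, f2] at e2
    have e3 : (c.b s * D.ρ s) 1 0 * ((D.ρ t) 0 1 * (β - α)) = 0 := by
      linear_combination e2 - α * e1
    rcases mul_eq_zero.1 e3 with e4 | e4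
    · exact e4
    · exact absurd e4 (mul_ne_zero ht1 (sub_ne_zero.2 hαβ.symm))
  obtain ⟨t', ht', hC⟩ := exists_lower D
  -- `Z_{t'} = 0`
  have hy' : (c.b t' * D.ρ t') 0 1 = 0 := by
    obtain ⟨d0, d1⟩ := hdiag t' ht'
    have := c.tau_mul ht' t'
    rw [h _ (D.G'.mul_mem ht' ht'), DiagD.trace_mul_of_diag _ _ d0 d1,
      DiagD.trace_mul_of_diag' _ _ d0 d1, hz t' ht'] at this
    have e : (c.b t' * D.ρ t') 0 1 * (2 * (D.ρ t') 1 0) = 0 := by
      linear_combination -this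
    rcases mul_eq_zero.1 e with e4 | e4
    · exact e4
    · exact absurd e4 (mul_ne_zero h2 hC)
  have hy : ∀ s ∈ D.G', (c.b s * D.ρ s) 0 1 = 0 := by
    intro s hs
    obtain ⟨d0, d1⟩ := hdiag s hs
    obtain ⟨d0', d1'⟩ := hdiag t' ht'
    have := c.tau_mul hs t'
    rw [h _ (D.G'.mul_mem hs ht'), DiagD.trace_mul_of_diag _ _ d0 d1,
      DiagD.trace_mul_of_diag' _ _ d0' d1', hz s hs, hz t' ht', hy'] at this
    have e : (c.b s * D.ρ s) 0 1 * (D.ρ t') 1 0 = 0 := by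
      linear_combination -this
    rcases mul_eq_zero.1 e with e4 | e4
    · exact e4
    · exact absurd e4 hC
  intro s hs
  have hZ : c.b s * D.ρ s = 0 := by
    obtain ⟨d0, d1⟩ := hdiag s hs
    ext i j
    fin_cases i <;> fin_cases j
    · exact d0
    · exact hy s hs
    · exact hz s hs
    · exact d1
  calc c.b s = c.b s * (D.ρ s * D.ρ s⁻¹) := by rw [D.ρ_mul_inv, mul_one]
    _ = (c.b s * D.ρ s) * D.ρ s⁻¹ := by rw [mul_assoc]
    _ = 0 := by rw [hZ, zero_mul]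

end Fermat.Agent.S56.Sel
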