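/-
S56 / SEL-CORE (architect helper56), node SC-16: (3) : tau = 0 on G' implies coboundary (assembly, proved)
STUB: statements are frozen; the owner of the task replaces every `sorry` (helper lemmas welcome,
prefix their names with `DiagMain.`).
-/
import Fermat.Agent.S56.Sel.Core.DiagA
import Fermat.Agent.S56.Sel.Core.DiagB
import Fermat.Agent.S56.Sel.Core.DiagC
import Fermat.Agent.S56.Sel.Core.DiagD

set_option autoImplicit false

namespace Fermat.Agent.S56.Sel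

open Matrix

variable {k G : Type} [Field k] [Group G]

variable {D : Core k G} (c : Coc D) {s0 : G} {α β : k}

theorem Coc.isCob_of_tau_eq_zero (h2 : (2 : k) ≠ 0) (hs0 : s0 ∈ D.G') (hαβ : α ≠ β)
    (hd : D.ρ s0 = !![α, 0; 0, β]) (h : ∀ s ∈ D.G', c.tau s = 0) : c.IsCob := by
  obtain ⟨X1, hX1, h1⟩ := c.exists_subCob_s0 hs0 hαβ hd (h s0 hs0)
  have ht1 : ∀ s ∈ D.G', (c.subCob X1 hX1).tau s = 0 := fun s hs => by
    rw [c.tau_subCob X1 hX1 hs]; exact h s hs
  obtain ⟨t, ht, htne⟩ := exists_upper D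
  obtain ⟨X2, hX2, h2a, h2b⟩ := (c.subCob X1 hX1).exists_subCob_h h2 hs0 hαβ hd h1 ht1 ht htne
  have ht2 : ∀ s ∈ D.G', ((c.subCob X1 hX1).subCob X2 hX2).tau s = 0 := fun s hs => by
    rw [(c.subCob X1 hX1).tau_subCob X2 hX2 hs]; exact ht1 s hs
  have h3 := ((c.subCob X1 hX1).subCob X2 hX2).eq_zero_on h2 hs0 hαβ hd h2a ht2 ht htne h2b
  have h4 := ((c.subCob X1 hX1).subCob X2 hX2).eq_zero_of_eq_zero_on h2 hs0 hαβ hd h3
  refine c.isCob_of_subCob X1 hX1 ((c.subCob X1 hX1).isCob_of_subCob X2 hX2 ⟨0, by simp, ?_⟩)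
  intro g
  rw [h4 g]
  simp

end Fermat.Agent.S56.Sel
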