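/-
S56 / SEL-CORE (architect helper56), node SC-26: THE THEOREM
(proofs: helper129)
-/
import Fermat.Agent.S56.Sel.Core.DiagMain
import Fermat.Agent.S56.Sel.Core.CaseA
import Fermat.Agent.S56.Sel.Core.CaseB
import Fermat.Agent.S56.Sel.Core.Conj
import Fermat.Agent.S56.Sel.Core.Reg

set_option autoImplicit false

namespace Fermat.Agent.S56.Sel

open Matrix

variable {k G : Type} [Field k] [Group G]

theorem two_ne_zero_of_char (p : ℕ) [Fact p.Prime] [CharP k p] (hp2 : p ≠ 2) : (2 : k) ≠ 0 :=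
  Ring.two_ne_zero (by rw [ringChar.eq k p]; exact hp2)

theorem Coc.isCob_of_tau_diag (p : ℕ) [Fact p.Prime] [CharP k p] (hp2 : p ≠ 2) {D : Core k G}
    (c : Coc D) {s0 : G} (hs0 : s0 ∈ D.G') {α β : k} (hαβ : α ≠ β) (hd : D.ρ s0 = !![α, 0; 0, β])
    (h : ∀ s ∈ D.G', D.IsReg s → c.tau s = 0) : c.IsCob :=
  have h2 := two_ne_zero_of_char (k := k) p hp2
  c.isCob_of_tau_eq_zero h2 hs0 hαβ hd (c.caseB p hp2 (c.caseA h2 hs0 hαβ hd h) h)

/-- **THEOREM (SEL-CORE).** -/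
theorem Coc.isCob_of_tau (p : ℕ) [Fact p.Prime] [CharP k p] (hp2 : p ≠ 2) {D : Core k G}
    (c : Coc D) (h : ∀ s ∈ D.G', D.IsReg s → c.tau s = 0) : c.IsCob := by
  have h2 := two_ne_zero_of_char (k := k) p hp2
  obtain ⟨s0, hs0, hreg⟩ := D.exists_reg h2
  obtain ⟨α, β, ht, hd⟩ := D.split s0
  have hαβ1 : α * β = 1 := by rw [← hd, D.det_one s0 hs0]
  have hαβ : α ≠ β := by
    rintro rfl
    apply hreg
    rw [ht]
    linear_combination 4 * hαβ1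
  obtain ⟨P, P', hPP', hP'P, hdiag⟩ := exists_diag (D.ρ s0) α β hαβ ht hd
  refine c.isCob_of_conj P P' hPP' hP'P ?_
  refine Coc.isCob_of_tau_diag p hp2 (c.conj P P' hPP' hP'P) (s0 := s0) hs0 hαβ hdiag ?_
  intro s hs hsreg
  rw [Coc.tau_conjBasis]
  exact h s hs ((Core.isReg_conj P P' hPP' hP'P s).1 hsreg)

/-- what SEL-ARITH uses -/
theorem Coc.exists_of_not_isCob (p : ℕ) [Fact p.Prime] [CharP k p] (hp2 : p ≠ 2) {D : Core k G}
    (c : Coc D) (h : ¬ c.IsCob) :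
    ∃ s ∈ D.G', D.IsReg s ∧ ∀ Y : M2 k, c.b s ≠ D.ρ s * Y * D.ρ s⁻¹ - Y := by
  by_contra hcon
  apply h
  refine c.isCob_of_tau p hp2 fun s hs hreg => ?_
  by_contra hτ
  apply hcon
  refine ⟨s, hs, hreg, fun Y hY => hτ ?_⟩
  rw [Coc.tau, hY]
  exact trace_cob _ _ _ (D.ρ_inv_mul s)

end Fermat.Agent.S56.Sel
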