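/-
S56 / SEL-CORE (architect helper56), node SC-27: the three properties only depend on the cyclic subgroup
(proved by helper123).
-/
import Fermat.Agent.S56.Sel.Core.Basic
import Fermat.Agent.S56.Sel.Core.Nil

set_option autoImplicit false

namespace Fermat.Agent.S56.Sel

open Matrix

variable {k G : Type} [Field k] [Group G]

/-- the recurrence for the traces of the powers -/
theorem Transfer.trace_pow_succ_succ (A : M2 k) (hd : A.det = 1) (m : ℕ) :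
    (A ^ (m + 2)).trace = A.trace * (A ^ (m + 1)).trace - (A ^ m).trace := by
  have h1 : A ^ (m + 2) = A.trace • A ^ (m + 1) - A ^ m := by
    have h2 : A ^ (m + 2) = (A * A) * A ^ m := by rw [add_comm, pow_add, pow_two]
    rw [h2, cayley, hd, one_smul, sub_mul, one_mul, smul_mul_assoc, ← pow_succ']
  rw [h1, trace_sub, trace_smul, smul_eq_mul]

/-- if `tr A = ± 2` and `det A = 1` then `tr A ^ m = ± 2` -/
theorem Transfer.trace_pow_sq (A : M2 k) (hd : A.det = 1) (ht : A.trace ^ 2 = 4) (m : ℕ) :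
    (A ^ m).trace ^ 2 = 4 ∧ (A ^ (m + 1)).trace ^ 2 = 4 ∧
      (A ^ m).trace * (A ^ (m + 1)).trace = 2 * A.trace := by
  induction m with
  | zero =>
    have h1 : (1 : M2 k).trace = 2 := by simp
    refine ⟨?_, ?_, ?_⟩
    · rw [pow_zero, h1]; norm_num
    · rw [zero_add, pow_one, ht]
    · rw [pow_zero, zero_add, pow_one, h1]
  | succ m ih =>
    obtain ⟨h1, h2, h3⟩ := ih
    have h4 := Transfer.trace_pow_succ_succ A hd m
    refine ⟨h2, ?_, ?_⟩
    · rw [show m + 1 + 1 = m + 2 from rfl, h4]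
      linear_combination (A ^ (m + 1)).trace ^ 2 * ht + 4 * h2 - 2 * A.trace * h3 + h1 - 4 * ht
    · rw [show m + 1 + 1 = m + 2 from rfl, h4]
      linear_combination A.trace * h2 - h3

/-- a coboundary relation at `φ` propagates to the powers of `φ` -/
theorem Transfer.b_pow {D : Core k G} (c : Coc D) {φ : G} (hφ : φ ∈ D.G') (Y : M2 k)
    (h : c.b φ = D.ρ φ * Y * D.ρ φ⁻¹ - Y) (m : ℕ) :
    c.b (φ ^ m) = D.ρ (φ ^ m) * Y * D.ρ (φ ^ m)⁻¹ - Y := by
  induction m with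
  | zero => rw [pow_zero, c.b_one, inv_one, map_one, one_mul, mul_one, sub_self]
  | succ m ih =>
    have hdet : (D.ρ (φ ^ m)).det = 1 := D.det_one _ (D.G'.pow_mem hφ m)
    rw [pow_succ, c.coc, hdet, one_smul, ih, h, _root_.mul_inv_rev, map_mul, map_mul]
    noncomm_ring

theorem Coc.transfer {D : Core k G} (c : Coc D) (K0 : Subgroup G) (hK0 : K0 ≤ D.G')
    (hρ : ∀ κ ∈ K0, D.ρ κ = 1) (hb : ∀ κ ∈ K0, c.b κ = 0) {s φ : G} (hs : s ∈ D.G')
    (hreg : D.IsReg s) (hne : ∀ Y : M2 k, c.b s ≠ D.ρ s * Y * D.ρ s⁻¹ - Y) (i j : ℕ)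
    (h1 : (s ^ i)⁻¹ * φ ∈ K0) (h2 : (φ ^ j)⁻¹ * s ∈ K0) :
    φ ∈ D.G' ∧ D.IsReg φ ∧ ∀ Y : M2 k, c.b φ ≠ D.ρ φ * Y * D.ρ φ⁻¹ - Y := by
  have e1 : φ = s ^ i * ((s ^ i)⁻¹ * φ) := by rw [mul_inv_cancel_left]
  have e2 : s = φ ^ j * ((φ ^ j)⁻¹ * s) := by rw [mul_inv_cancel_left]
  have hφ : φ ∈ D.G' := by
    rw [e1]
    exact D.G'.mul_mem (D.G'.pow_mem hs i) (hK0 h1)
  have hρs : D.ρ s = D.ρ (φ ^ j) := by
    conv_lhs => rw [e2]
    rw [map_mul, hρ _ h2, mul_one]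
  have hρs' : D.ρ s⁻¹ = D.ρ (φ ^ j)⁻¹ := by
    conv_lhs => rw [e2]
    rw [_root_.mul_inv_rev, map_mul, hρ _ (K0.inv_mem h2), one_mul]
  have hbs : c.b s = c.b (φ ^ j) := by
    conv_lhs => rw [e2]
    rw [c.coc, hb _ h2, mul_zero, zero_mul, smul_zero, add_zero]
  refine ⟨hφ, ?_, ?_⟩
  · intro ht
    apply hreg
    rw [hρs, map_pow]
    exact (Transfer.trace_pow_sq _ (D.det_one _ hφ) ht j).1
  · intro Y hY
    apply hne Y
    rw [hbs, hρs, hρs']
    exact Transfer.b_pow c hφ Y hY j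

end Fermat.Agent.S56.Sel
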